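import Fermat.Agent.EllFrob.FrobRel
import Fermat.Agent.Local.API
import Fermat.Prelude.Def_EllipticCurve_FrobeniusTrace

set_option autoImplicit false
set_option linter.all false

/-!
A Frobenius element at a place of good reduction satisfies the quadratic relation on torsion.
-/

noncomputable section

namespace FLTAgent.EllFrob

open WeierstrassCurve IsLocalRing FLTAgent.Local
open scoped WeierstrassCurve.Affine

local notation "Ω" => AlgebraicClosure ℚ

/-- transport of points along an equality of curves -/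
def pointCongr {K : Type*} [Field K] [DecidableEq K] {W1 W2 : WeierstrassCurve K} (h : W1 = W2) :
    W1.toAffine.Point ≃+ W2.toAffine.Point :=
  h ▸ AddEquiv.refl _

lemma pointCongr_some {K : Type*} [Field K] [DecidableEq K] {W1 W2 : WeierstrassCurve K}
    (h : W1 = W2) {x y : K} (hxy : W1.toAffine.Nonsingular x y) :
    pointCongr h (.some x y hxy) = .some x y (h ▸ hxy) := by
  subst h; rfl

variable (A : ValuationSubring (AlgebraicClosure ℚ)) {ℓ : ℕ}

lemma charP_residue (hA : A.LiesOverPrime ℓ) (hℓ : ℓ.Prime) : CharP (ResidueField A) ℓ := by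
  refine (CharP.charP_iff_prime_eq_zero hℓ).mpr ?_
  rw [← map_natCast (residue A), res_eq_zero, ← A.subtype_apply, map_natCast]
  exact hA

lemma isAlgebraic_residue [Fact ℓ.Prime] [Algebra (ZMod ℓ) (ResidueField A)] :
    Algebra.IsAlgebraic (ZMod ℓ) (ResidueField A) := by
  refine ⟨fun z => ?_⟩
  obtain ⟨x, rfl⟩ := residue_surjective z
  have halg : IsAlgebraic ℤ (x : Ω) := (IsFractionRing.isAlgebraic_iff ℤ ℚ Ω).mpr
    ((AlgebraicClosure.isAlgebraic ℚ).isAlgebraic _)
  obtain ⟨f, hf0, hfx⟩ := halg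
  have hprim : Polynomial.aeval x f.primPart = 0 := by
    rw [f.eq_C_content_mul_primPart, map_mul, Polynomial.aeval_C, mul_eq_zero] at hfx
    rcases hfx with h | h
    · exact absurd (by simpa using h) (mt Polynomial.content_eq_zero_iff.mp hf0)
    · apply A.subtype_injective
      rw [map_zero, ← h, Polynomial.aeval_def, Polynomial.aeval_def, Polynomial.hom_eval₂]
      congr 1
  refine ⟨f.primPart.map (Int.castRingHom (ZMod ℓ)), fun e => ?_, ?_⟩
  · have hd : Polynomial.C (ℓ : ℤ) ∣ f.primPart := by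
      rw [Polynomial.C_dvd_iff_dvd_coeff]
      intro i
      have h := congrArg (fun g : Polynomial (ZMod ℓ) => g.coeff i) e
      simpa [Polynomial.coeff_map, ZMod.intCast_zmod_eq_zero_iff_dvd] using h
    have hu := f.isPrimitive_primPart (ℓ : ℤ) hd
    rw [Int.isUnit_iff_natAbs_eq, Int.natAbs_natCast] at hu
    exact (Fact.out : ℓ.Prime).one_lt.ne' hu
  · rw [Polynomial.aeval_def, Polynomial.eval₂_map]
    have h := congrArg (residue A) hprim
    rw [map_zero, Polynomial.aeval_def, Polynomial.hom_eval₂] at h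
    rw [RingHom.ext_int ((algebraMap (ZMod ℓ) (ResidueField A)).comp (Int.castRingHom (ZMod ℓ)))
      ((residue A).comp (algebraMap ℤ A))]
    exact h

variable {A}

/-- **Eichler–Shimura for an elliptic curve**: on torsion of order prime to `ℓ`, a Frobenius
element at a good prime `ℓ` is killed by `X² - a_ℓ X + ℓ`. -/
theorem torsion_relation {W : WeierstrassCurve ℤ} (hℓ : ℓ.Prime) (hgood : ¬ (ℓ : ℤ) ∣ W.Δ)
    (hA : A.LiesOverPrime ℓ) {σ : Ω ≃ₐ[ℚ] Ω} (hσ : A.IsFrobeniusAt σ ℓ) {n : ℕ} (hn : ¬ ℓ ∣ n)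
    (P : QPoint W) (hP : n • P = 0) :
    σ • σ • P - W.apOfModel ℓ • σ • P + (ℓ : ℤ) • P = 0 := by
  classical
  haveI : Fact ℓ.Prime := ⟨hℓ⟩
  haveI := charP_residue A hA hℓ
  letI : Algebra (ZMod ℓ) (ResidueField A) := ZMod.algebra _ ℓ
  haveI := isAlgebraic_residue (ℓ := ℓ) A
  have hell : (W.reductionMod ℓ).IsElliptic := by
    constructor
    rw [reductionMod, WeierstrassCurve.map_Δ, isUnit_iff_ne_zero, Int.coe_castRingHom, Ne,
      ZMod.intCast_zmod_eq_zero_iff_dvd]
    exact hgood
  set k := ResidueField A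
  have hspec : specFib (locModel A W) = ((W.reductionMod ℓ)⁄k) := by
    show (W.map (Int.castRingHom A)).map (residue A)
      = (W.map (Int.castRingHom (ZMod ℓ))).map (algebraMap (ZMod ℓ) k)
    rw [WeierstrassCurve.map_map, WeierstrassCurve.map_map]
    congr 1
    exact RingHom.ext_int _ _
  have hE0 : ∀ Q : QPoint W, InE0 (toLoc A W Q) := fun Q =>
    (inE0_toLoc A W).2 (mem_zeroComp_of_good hA hℓ hgood Q)
  let ρ : QPoint W →+ ((W.reductionMod ℓ)⁄k).Point :=
    (pointCongr hspec).toAddMonoidHom.comp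
      ((redHom (locModel A W)).comp ((toLoc A W).codRestrict (compZero (locModel A W)) hE0))
  have hker : ∀ Q, ρ Q = 0 → n • Q = 0 → Q = 0 := by
    intro Q h hnQ
    have h' : red (toLoc A W Q) = 0 := (pointCongr hspec).map_eq_zero_iff.mp h
    exact redKernel_torsion_eq_zero hA hℓ hn
      ((inE1_toLoc W A).1 (inE1_of_red_eq_zero (hE0 Q) h')) hnQ
  have hd := hσ.mem_decompositionSubgroup
  have heq : ∀ Q, ρ (σ • Q) = frobPt (W.reductionMod ℓ) k (ρ Q) := by
    intro Q
    rcases Q with _ | ⟨x, y, h⟩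
    · change ρ (σ • (0 : QPoint W)) = frobPt _ k (ρ 0)
      rw [Affine.Point.algEquiv_smul_def, map_zero, map_zero, map_zero]
    rw [Affine.Point.algEquiv_smul_def, Affine.Point.map_some]
    obtain ⟨h1, e1⟩ := toLoc_some A W h
    have hns : ((W.map (Int.castRingHom ℚ))⁄Ω).toAffine.Nonsingular (σ x) (σ y) :=
      ((W.map (Int.castRingHom ℚ)).toAffine.baseChange_nonsingular σ.toAlgHom.injective x y).2 h
    obtain ⟨h2, e2⟩ := toLoc_some A W hns
    show pointCongr hspec (red (toLoc A W (.some (σ x) (σ y) hns)))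
      = frobPt _ k (pointCongr hspec (red (toLoc A W (.some x y h))))
    rw [e1, e2]
    by_cases hx : x ∈ A
    · have hy := y_mem h1.1 hx
      obtain ⟨hx', hy', hn'⟩ := (hE0 (.some x y h) |> fun h0 => by
        rw [e1] at h0; exact (h0 : x ∉ A ∨ _).resolve_left (not_not.2 hx))
      have hσx : σ x ∈ A := by rw [← A.valuation_le_one_iff, val_aut hd]; exact val_le_one hx
      have hσy : σ y ∈ A := by rw [← A.valuation_le_one_iff, val_aut hd]; exact val_le_one hy
      have hres : ∀ (z : Ω) (hz : z ∈ A) (hσz : σ z ∈ A),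
          residue A ⟨σ z, hσz⟩ = residue A ⟨z, hz⟩ ^ ℓ := by
        intro z hz hσz
        rw [← hσ.smul_residue_eq (residue A ⟨z, hz⟩), ← IsLocalRing.ResidueField.residue_smul]
        rfl
      have hn2 : (specFib (locModel A W)).toAffine.Nonsingular (residue A ⟨σ x, hσx⟩)
          (residue A ⟨σ y, hσy⟩) := by
        obtain ⟨_, _, h3⟩ := (hE0 (.some (σ x) (σ y) _) |> fun h0 => by
          rw [e2] at h0; exact (h0 : σ x ∉ A ∨ _).resolve_left (not_not.2 hσx))
        exact h3
      rw [red_some hx hy hn']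
      erw [red_some hσx hσy hn2]
      rw [pointCongr_some, pointCongr_some]
      obtain ⟨hf, ef⟩ := frobPt_some (W.reductionMod ℓ) (hspec ▸ hn')
      rw [ef]
      simp only [Affine.Point.some.injEq, ZMod.card]
      exact ⟨hres x hx hσx, hres y hy hσy⟩
    · have hσx : σ x ∉ A := by
        rw [← A.valuation_le_one_iff, val_aut hd, A.valuation_le_one_iff]; exact hx
      rw [InE1.red_eq (show InE1 (Affine.Point.some _ _ h1) from hx),
        InE1.red_eq (show InE1 (Affine.Point.some _ _ h2) from hσx), map_zero, map_zero]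
  have htor : n • (σ • σ • P - W.apOfModel ℓ • σ • P + (ℓ : ℤ) • P) = 0 := by
    have hz : ∀ (c : ℤ) (Q : QPoint W), n • Q = 0 → n • (c • Q) = 0 := fun c Q h => by
      rw [← natCast_zsmul, ← mul_zsmul, mul_comm, mul_zsmul, natCast_zsmul, h, zsmul_zero]
    rw [nsmul_add, nsmul_sub, smul_torsion (smul_torsion hP), hz _ _ (smul_torsion hP), hz _ _ hP,
      sub_zero, add_zero]
  refine hker _ ?_ htor
  rw [map_add, map_sub, map_zsmul, map_zsmul, heq, heq]
  have hrel := frobPt_relation (W.reductionMod ℓ) k (ρ P)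
  rw [show W.apOfModel ℓ = frobTrace (W.reductionMod ℓ) by
    rw [apOfModel, traceOfFrobenius, frobTrace, Nat.card_eq_fintype_card]]
  rw [ZMod.card] at hrel
  exact hrel

end FLTAgent.EllFrob
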