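import Fermat.Agent.EllFrob.Trace
import Fermat.Agent.Torsion.Reducible
import Fermat.Agent.Attach.Cyclotomic
import Fermat.Agent.Chebotarev.Density

set_option autoImplicit false
set_option linter.all false

/-!
The determinant of the mod `p` representation of an elliptic curve is the cyclotomic character.
-/

noncomputable section

namespace FLTAgent.EllFrob

open WeierstrassCurve FLTAgent.Local FLTAgent.Torsion FLTAgent.Attach
open scoped WeierstrassCurve.Affine
open WeierstrassCurve.Affine.Point (galoisTrace galoisRepModuleEnd galoisRepModuleEnd_apply)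

local notation "Ω" => AlgebraicClosure ℚ

/-- the field generated by the torsion -/
theorem exists_torsion_field {W : WeierstrassCurve ℤ} (hΔ : W.Δ ≠ 0) (n : ℕ) (hn : n ≠ 0) :
    ∃ L : IntermediateField ℚ Ω, FiniteDimensional ℚ L ∧
      ∀ σ τ : Ω ≃ₐ[ℚ] Ω, (∀ z ∈ L, σ z = τ z) → ∀ x : Tors W n, σ • x = τ • x := by
  classical
  haveI := isElliptic_curveBar hΔ
  haveI := FLTAgent.Common.isAlgebraic_qbar
  haveI : Finite (Tors W n) := finite_torsionBy (curveBar W) n hn
  let S : Set Ω := Set.range (fun x : Tors W n => xcoord (x : QPoint W)) ∪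
    Set.range (fun x : Tors W n => ycoord (x : QPoint W))
  haveI : Finite S := ((Set.finite_range _).union (Set.finite_range _)).to_subtype
  refine ⟨IntermediateField.adjoin ℚ S,
    IntermediateField.finiteDimensional_adjoin fun z _ => Algebra.IsIntegral.isIntegral z,
    fun σ τ h x => Subtype.ext ?_⟩
  have h1 := h _ (IntermediateField.subset_adjoin ℚ S (Or.inl ⟨x, rfl⟩))
  have h2 := h _ (IntermediateField.subset_adjoin ℚ S (Or.inr ⟨x, rfl⟩))
  rw [coe_smul, coe_smul]
  obtain ⟨Q, hQ⟩ : ∃ Q : QPoint W, (x : QPoint W) = Q := ⟨_, rfl⟩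
  simp only [hQ] at h1 h2 ⊢
  rcases Q with _ | ⟨a, b, hns⟩
  · rfl
  · rw [Affine.Point.algEquiv_smul_def, Affine.Point.algEquiv_smul_def, Affine.Point.map_some,
      Affine.Point.map_some, Affine.Point.some.injEq]
    exact ⟨h1, h2⟩

/-- the determinant of the mod `p` representation -/
def repDet (W : WeierstrassCurve ℤ) (p : ℕ) (σ : Ω ≃ₐ[ℚ] Ω) : ZMod p :=
  LinearMap.det (galoisRepModuleEnd ℚ (K := Ω) (W.map (Int.castRingHom ℚ)) p σ)

lemma repDet_pow (W : WeierstrassCurve ℤ) (p : ℕ) (σ : Ω ≃ₐ[ℚ] Ω) (k : ℕ) :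
    repDet W p (σ ^ k) = repDet W p σ ^ k := by
  rw [repDet, repDet, map_pow, map_pow]

lemma cyc_pow (n : ℕ) [NeZero n] (σ : Ω ≃ₐ[ℚ] Ω) (k : ℕ) : cyc n (σ ^ k) = cyc n σ ^ k := by
  induction k with
  | zero => rw [pow_zero, pow_zero, cyc_one]
  | succ k ih => rw [pow_succ, pow_succ, cyc_mul, ih]

theorem repDet_eq_cyc {W : WeierstrassCurve ℤ} (hΔ : W.Δ ≠ 0) (p : ℕ) [Fact p.Prime] :
    repDet W p = cyc p := by
  have hp : p.Prime := Fact.out
  obtain ⟨L, hL, hLtriv⟩ := exists_torsion_field hΔ p hp.ne_zero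
  obtain ⟨L', hL', hcyc⟩ := exists_cyc_level p
  haveI := hL
  haveI := hL'
  refine FLTAgent.Chebotarev.eq_of_forall_frobenius_pow (repDet W p) (cyc p) (L ⊔ L') ?_ ?_
    (insert p W.Δ.natAbs.primeFactors) ?_
  · intro σ τ h
    rw [repDet, repDet]
    congr 1
    refine LinearMap.ext fun x => ?_
    rw [galoisRepModuleEnd_apply, galoisRepModuleEnd_apply]
    exact hLtriv σ τ (fun z hz => h z (le_sup_left (b := L') hz)) x
  · intro σ τ h
    have h1 : cyc p (τ⁻¹ * σ) = 1 := hcyc _ fun z hz => by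
      rw [AlgEquiv.mul_apply, h z (le_sup_right (a := L) hz)]
      exact τ.symm_apply_apply z
    calc cyc p σ = cyc p (τ * (τ⁻¹ * σ)) := by rw [mul_inv_cancel_left]
      _ = cyc p τ := by rw [cyc_mul, h1, mul_one]
  · intro ℓ A τ k hℓ hS hA hF
    rw [Finset.mem_insert, not_or] at hS
    have hgood : ¬ (ℓ : ℤ) ∣ W.Δ := fun h => hS.2 (Nat.mem_primeFactors.2
      ⟨hℓ, Int.natCast_dvd.1 h, by simpa using hΔ⟩)
    rw [repDet_pow, cyc_pow]
    congr 1
    rw [cyc_frobenius hℓ (fun h => hS.1 ((Nat.prime_dvd_prime_iff_eq hℓ hp).1 h)) hA hF]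
    exact (galois_charpoly hℓ hgood hA hF hp (Ne.symm hS.1)).2

end FLTAgent.EllFrob
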