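import Fermat.Agent.EllFrob.FrobSub

set_option autoImplicit false
set_option linter.unusedSectionVars false

/-!
Points negated by the hyperelliptic involution have rational x-coordinate, and the height is a
quadratic form on them.
-/

noncomputable section

namespace FLTAgent.EllFrob

open Polynomial WeierstrassCurve WeierstrassCurve.Affine FLTAgent.Torsion
open scoped WeierstrassCurve.Affine Polynomial.Bivariate

variable {F : Type*} [Field F] (W : WeierstrassCurve F) [W.IsElliptic]

lemma conjRing_conjRing (z : W.toAffine.CoordinateRing) : conjRing W (conjRing W z) = z := by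
  obtain ⟨p, q, rfl⟩ := CoordinateRing.exists_smul_basis_eq z
  simp only [Algebra.smul_def, map_add, map_mul, conjRing_Y, map_one, conjRing_of, map_sub,
    map_neg]
  ring

lemma conjRing_injective : Function.Injective (conjRing W) :=
  Function.LeftInverse.injective (conjRing_conjRing W)

lemma comp_conjRing_injective : Function.Injective
    ((algebraMap W.toAffine.CoordinateRing W.toAffine.FunctionField).comp (conjRing W)) :=
  (IsFractionRing.injective _ _).comp (conjRing_injective W)

/-- the involution on the function field, as a ring homomorphism -/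
def conjHom : W.toAffine.FunctionField →+* W.toAffine.FunctionField :=
  IsFractionRing.lift (comp_conjRing_injective W)

lemma conjHom_algebraMap (z : W.toAffine.CoordinateRing) :
    conjHom W (algebraMap W.toAffine.CoordinateRing W.toAffine.FunctionField z)
      = algebraMap W.toAffine.CoordinateRing W.toAffine.FunctionField (conjRing W z) := by
  rw [conjHom, IsFractionRing.lift_algebraMap]
  rfl

/-- the involution on the function field -/
def conjL : W.toAffine.FunctionField →ₐ[F] W.toAffine.FunctionField :=
  { conjHom W with
    commutes' := fun c => by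
      show conjHom W (algebraMap W.toAffine.CoordinateRing W.toAffine.FunctionField
        (algebraMap F[X] W.toAffine.CoordinateRing (Polynomial.C c))) = _
      rw [conjHom_algebraMap, conjRing_of]
      rfl }

lemma conjL_algebraMap (z : W.toAffine.CoordinateRing) :
    conjL W (algebraMap W.toAffine.CoordinateRing W.toAffine.FunctionField z)
      = algebraMap W.toAffine.CoordinateRing W.toAffine.FunctionField (conjRing W z) :=
  conjHom_algebraMap W z

lemma conjL_iota (f : F[X]) : conjL W (iota W f) = iota W f := by
  simp only [iota, RingHom.comp_apply, conjL_algebraMap, conjRing_of]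

lemma conjL_yGen : conjL W (yGen W)
    = (W⁄W.toAffine.FunctionField).toAffine.negY (tGen W) (yGen W) := by
  rw [yGen, conjL_algebraMap, conjRing_Y, map_sub, map_neg, Affine.negY]
  show _ - iota W _ = _
  rw [map_add, map_mul, iota_C, iota_C]
  simp [WeierstrassCurve.baseChange, tGen]
  ring

lemma map_conjL_gen : Point.map (conjL W) (gen W) = - gen W := by
  rw [gen, Point.map_some, Point.neg_some]
  simp [conjL_yGen, tGen, conjL_iota]

lemma exists_fraction_of_fixed {z : W.toAffine.FunctionField} (hz : conjL W z = z) :
    ∃ A B : F[X], B ≠ 0 ∧ z * iota W B = iota W A := by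
  obtain ⟨a, b, hb, rfl⟩ := IsFractionRing.div_surjective (A := W.toAffine.CoordinateRing) z
  obtain ⟨B, hB⟩ := mem_range_of_conj W (z := b * conjRing W b) (by
    rw [map_mul, conjRing_conjRing, mul_comm])
  have hb0 : b ≠ 0 := nonZeroDivisors.ne_zero hb
  have hbc : b * conjRing W b ≠ 0 :=
    mul_ne_zero hb0 ((map_ne_zero_iff _ (conjRing_injective W)).mpr hb0)
  have hι : Function.Injective
      (algebraMap W.toAffine.CoordinateRing W.toAffine.FunctionField) := IsFractionRing.injective _ _
  set α := algebraMap W.toAffine.CoordinateRing W.toAffine.FunctionField with hα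
  have he : α a / α b * iota W B = α (a * conjRing W b) := by
    rw [show iota W B = α (b * conjRing W b) from congrArg α hB.symm, map_mul, map_mul]
    have := (map_ne_zero_iff α hι).mpr hb0
    field_simp
  obtain ⟨A, hA⟩ := mem_range_of_conj W (z := a * conjRing W b) (by
    apply hι
    rw [← conjL_algebraMap, ← hα, ← he, map_mul, hz, conjL_iota])
  refine ⟨A, B, fun e => hbc (by rw [hB, e, map_zero]), ?_⟩
  rw [he, hA]
  rfl

/-- points negated by the involution -/
def anti : AddSubgroup (W⁄W.toAffine.FunctionField).Point :=
  AddMonoidHom.eqLocus (Point.map (conjL W)) (-AddMonoidHom.id _)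

lemma mem_anti {P : (W⁄W.toAffine.FunctionField).Point} :
    P ∈ anti W ↔ Point.map (conjL W) P = -P := Iff.rfl

lemma gen_mem_anti : gen W ∈ anti W := map_conjL_gen W

lemma exists_hasHt {P : (W⁄W.toAffine.FunctionField).Point} (hP : P ∈ anti W) :
    ∃ z, HasHt (iota W) P z := by
  rcases P with _ | ⟨x, y, h⟩
  · exact ⟨0, HasHt.zero (W := W) (ι := iota W)⟩
  · rw [mem_anti, Point.map_some, Point.neg_some] at hP
    simp only [Point.some.injEq] at hP
    obtain ⟨A, B, hB, hx⟩ := exists_fraction_of_fixed W hP.1
    obtain ⟨n, hn⟩ := hasDeg_of_fraction (iota_injective W) hB hx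
    exact ⟨n, n, rfl, by rwa [Point.xRep_some]⟩

/-- height on anti-invariant points -/
def ht (P : anti W) : ℤ := (exists_hasHt W P.2).choose

lemma hasHt_ht (P : anti W) : HasHt (iota W) P.1 (ht W P) := (exists_hasHt W P.2).choose_spec

lemma ht_eq {P : anti W} {z : ℤ} (h : HasHt (iota W) P.1 z) : ht W P = z :=
  HasHt.unique (W := W) (iota_injective W) (hasHt_ht W P) h

lemma ht_parallelogram (P Q : anti W) :
    ht W (P + Q) + ht W (P - Q) = 2 * ht W P + 2 * ht W Q := by
  have h := exists_hasHt_add (W := W) (iota_injective W) (hasHt_ht W P) (hasHt_ht W Q)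
    (hasHt_ht W (P - Q))
  have := ht_eq W (P := P + Q) h
  omega

end FLTAgent.EllFrob
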