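import Fermat.Agent.EllFrob.Subst
import Mathlib.FieldTheory.IsAlgClosed.Basic
import Mathlib.FieldTheory.AlgebraicClosure

set_option autoImplicit false
set_option linter.unusedSectionVars false

/-!
The Hasse bound and the quadratic relation of the Frobenius endomorphism.
-/

noncomputable section

namespace FLTAgent.EllFrob

open Polynomial WeierstrassCurve WeierstrassCurve.Affine FLTAgent.Torsion

section Quadratic

variable {A : Type*} [AddCommGroup A] {h : A → ℤ}
  (hp : ∀ x y, h (x + y) + h (x - y) = 2 * h x + 2 * h y)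

include hp

lemma polar_add (x y z : A) :
    h (x + y + z) = h (x + y) + h (x + z) + h (y + z) - h x - h y - h z := by
  have e0 : h 0 = 0 := by have := hp 0 0; simp at this; omega
  have en : ∀ w, h (-w) = h w := fun w => by
    have := hp 0 w; simp [e0] at this; omega
  have h1 := hp (x + z) y
  have h2 := hp (x - y) z
  have h3 := hp x y
  have h4 := hp x (y + z)
  rw [show x + z + y = x + y + z by abel, show x + z - y = x - y + z by abel] at h1
  rw [show x + (y + z) = x + y + z by abel, show x - (y + z) = x - y - z by abel] at h4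
  linarith

end Quadratic

variable {F : Type*} [Field F] [Fintype F] (W : WeierstrassCurve F) [W.IsElliptic]

local notation "q" => Fintype.card F

omit [Fintype F] in
lemma hasHt_cast {P : (W⁄W.toAffine.FunctionField).Point} {a b : ℤ} (h : HasHt (iota W) P a)
    (e : a = b) : HasHt (iota W) P b := e ▸ h

omit [Fintype F] in
lemma hasHt_add_of_sub {P Q : (W⁄W.toAffine.FunctionField).Point} {a b c : ℤ}
    (hP : HasHt (iota W) P a) (hQ : HasHt (iota W) Q b) (hd : HasHt (iota W) (P - Q) c) :
    HasHt (iota W) (P + Q) (2 * a + 2 * b - c) :=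
  exists_hasHt_add (W := W) (iota_injective W) hP hQ hd

omit [Fintype F] in
lemma hasHt_pair {P Q : (W⁄W.toAffine.FunctionField).Point} {a b s : ℤ}
    (hP : HasHt (iota W) P a) (hQ : HasHt (iota W) Q b) (hs : HasHt (iota W) (P + Q) s)
    (m n : ℤ) :
    HasHt (iota W) (m • P + n • Q) (m ^ 2 * a + n ^ 2 * b + m * n * (s - a - b)) :=
  hasHt_lattice (W := W) (iota_injective W) hP hQ hs m n

omit [Fintype F] in
lemma height_unique {P : (W⁄W.toAffine.FunctionField).Point} {a b : ℤ}
    (h : HasHt (iota W) P a) (h' : HasHt (iota W) P b) : a = b :=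
  HasHt.unique (W := W) (iota_injective W) h h'

/-- the trace of Frobenius -/
def frobTrace : ℤ := (q : ℤ) + 1 - W.card

lemma frobGen_mem_anti : frobGen W ∈ anti W := by
  rw [mem_anti, frobGen, Point.map_map,
    show (conjL W).comp (frobL W) = (frobL W).comp (conjL W) from
      AlgHom.ext fun z => by simp [frobL],
    ← Point.map_map, map_conjL_gen, map_neg]

lemma hasHt_frob_add :
    HasHt (iota W) (frobGen W + gen W) ((q : ℤ) + 1 + frobTrace W) := by
  refine hasHt_cast W (hasHt_add_of_sub W (hasHt_frobGen W) (hasHt_gen W) (hasHt_frob_sub W)) ?_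
  simp only [frobTrace]
  ring

lemma hasHt_comb (m n : ℤ) :
    HasHt (iota W) (m • frobGen W + n • gen W)
      ((q : ℤ) * m ^ 2 + frobTrace W * m * n + n ^ 2) := by
  refine hasHt_cast W (hasHt_pair W (hasHt_frobGen W) (hasHt_gen W) (hasHt_frob_add W) m n) ?_
  ring

/-- Hasse's bound -/
theorem hasse_bound : frobTrace W ^ 2 ≤ 4 * (q : ℤ) := by
  have h := HasHt.nonneg (W := W) (hasHt_comb W 2 (-frobTrace W))
  nlinarith

lemma one_le_deg_add : 1 ≤ (q : ℤ) + 1 + frobTrace W := by
  have h := hasse_bound W
  have h2 : (2 : ℤ) ≤ q := by exact_mod_cast Fintype.one_lt_card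
  nlinarith [sq_nonneg ((q : ℤ) - 1)]

lemma exists_substitution {P : (W⁄W.toAffine.FunctionField).Point} {d : ℤ}
    (hP : HasHt (iota W) P d) (hd : 1 ≤ d) :
    ∃ ε : W.toAffine.FunctionField →ₐ[F] W.toAffine.FunctionField,
      Point.map ε (gen W) = P ∧
      (∀ (Q : (W⁄W.toAffine.FunctionField).Point) (z : ℤ),
        HasHt (iota W) Q z → HasHt (iota W) (Point.map ε Q) (z * d)) ∧
      ∀ Q : (W⁄W.toAffine.FunctionField).Point,
        Point.map ε (Point.map (frobL W) Q) = Point.map (frobL W) (Point.map ε Q) := by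
  rcases P with _ | ⟨x, y, h⟩
  · have := HasHt.unique (W := W) (iota_injective W) hP (HasHt.zero (W := W) (ι := iota W))
    omega
  obtain ⟨l, hl, hdeg⟩ := id hP
  rw [Point.xRep_some] at hdeg
  obtain ⟨ε, hεx, hεy⟩ := exists_algHom_of_transcendental W h.1
    (transcendental_of_hasDeg W hdeg (by omega))
  refine ⟨ε, ?_, fun Q z hQ => hasHt_map_subst W hP ε hεx hQ, fun Q => ?_⟩
  · rw [gen, Point.map_some]
    simp [hεx, hεy]
  · rw [Point.map_map, Point.map_map,
      show ε.comp (frobL W) = (frobL W).comp ε from AlgHom.ext fun z => by simp [frobL]]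

lemma hasHt_frob_sq_sub :
    HasHt (iota W) (Point.map (frobL W) (frobGen W) - gen W)
      (((q : ℤ) + 1) ^ 2 - frobTrace W ^ 2) := by
  obtain ⟨ε, hG, hmul, hcomm⟩ := exists_substitution W (hasHt_frob_add W) (one_le_deg_add W)
  have h := hmul _ _ (hasHt_frob_sub W)
  rw [map_sub, hG, frobGen, hcomm, hG, map_add] at h
  rw [show Point.map (frobL W) (frobGen W) + Point.map (frobL W) (gen W)
      - (Point.map (frobL W) (gen W) + gen W) = Point.map (frobL W) (frobGen W) - gen W by abel]
    at h
  convert h using 1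
  simp only [frobTrace]
  ring

lemma hasHt_rel :
    HasHt (iota W) (Point.map (frobL W) (frobGen W) - frobTrace W • frobGen W
      + (q : ℤ) • gen W) 0 := by
  set a := frobTrace W
  set f2 : (W⁄W.toAffine.FunctionField).Point := Point.map (frobL W) (frobGen W) with hf2
  have m2 : f2 ∈ anti W := by
    rw [mem_anti, hf2, Point.map_map,
      show (conjL W).comp (frobL W) = (frobL W).comp (conjL W) from
        AlgHom.ext fun z => by simp [frobL],
      ← Point.map_map, (mem_anti W).mp (frobGen_mem_anti W), map_neg]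
  have m1 := frobGen_mem_anti W
  have m0 := gen_mem_anti W
  have hf2' : HasHt (iota W) f2 ((q : ℤ) * q) := hasHt_map_frobL W (hasHt_frobGen W)
  have hadd0 : HasHt (iota W) (f2 + gen W) ((q : ℤ) ^ 2 - 2 * q + 1 + a ^ 2) := by
    refine hasHt_cast W (hasHt_add_of_sub W hf2' (hasHt_gen W) (hasHt_frob_sq_sub W)) ?_
    ring
  have hadd1 : HasHt (iota W) (f2 + frobGen W) (((q : ℤ) + 1 + a) * q) := by
    have h := hasHt_map_frobL W (hasHt_frob_add W)
    rwa [map_add] at h
  have l01 := hasHt_pair W hf2' (hasHt_gen W) hadd0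
  have l12 := hasHt_pair W hf2' (hasHt_frobGen W) hadd1
  let X : anti W := ⟨f2, m2⟩
  let Y : anti W := ⟨-a • frobGen W, zsmul_mem m1 _⟩
  let Z : anti W := ⟨(q : ℤ) • gen W, zsmul_mem m0 _⟩
  have key := polar_add (ht_parallelogram W) X Y Z
  have exy : ht W (X + Y) = _ := ht_eq W (by simpa [X, Y] using l12 1 (-a))
  have exz : ht W (X + Z) = _ := ht_eq W (by simpa [X, Z] using l01 1 q)
  have eyz : ht W (Y + Z) = _ := ht_eq W (hasHt_comb W (-a) q)
  have ex : ht W X = _ := ht_eq W hf2'
  have ey : ht W Y = _ := ht_eq W (by simpa [Y] using hasHt_comb W (-a) 0)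
  have ez : ht W Z = _ := ht_eq W (by simpa [Z] using hasHt_comb W 0 q)
  have h := hasHt_ht W (X + Y + Z)
  have h0 : ht W (X + Y + Z) = 0 := by
    rw [key, exy, exz, eyz, ex, ey, ez]
    ring
  rw [h0] at h
  simpa [X, Y, Z, sub_eq_add_neg] using h

/-- the quadratic relation at the generic point -/
theorem frobGen_relation :
    Point.map (frobL W) (frobGen W) - frobTrace W • frobGen W + (q : ℤ) • gen W = 0 := by
  obtain ⟨n, hn, hdeg⟩ := hasHt_rel W
  set T := Point.map (frobL W) (frobGen W) - frobTrace W • frobGen W + (q : ℤ) • gen W with hT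
  have hmul : ∀ m : ℤ, ∃ ε : W.toAffine.FunctionField →ₐ[F] W.toAffine.FunctionField,
      m ≠ 0 → Point.map ε T = m • T ∧
        ∃ c : F, T ≠ 0 → xc (m • T) = algebraMap F _ c ∧ xc T = algebraMap F _ c := by
    intro m
    rcases eq_or_ne m 0 with rfl | hm
    · exact ⟨AlgHom.id F _, fun h => absurd rfl h⟩
    have hmG : HasHt (iota W) (m • gen W) (m ^ 2) := by
      have h := hasHt_comb W 0 m
      simpa using h
    obtain ⟨ε, hG, -, hcomm⟩ := exists_substitution W hmG
      (by have := sq_pos_of_ne_zero hm; omega)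
    refine ⟨ε, fun _ => ?_⟩
    have hTm : Point.map ε T = m • T := by
      simp only [hT, map_add, map_sub, map_zsmul, frobGen, hcomm, hG, zsmul_add, zsmul_sub,
        ← mul_zsmul, mul_comm m]
    refine ⟨hTm, ?_⟩
    obtain ⟨s, -, hs, c, hc, hv⟩ := hdeg
    obtain rfl : n = 0 := by omega
    refine ⟨(s 0).coeff 0 / (s 1).coeff 0, fun hT0 => ?_⟩
    obtain ⟨x, y, hxy, hTe, hTx⟩ := exists_some_of_ne_zero hT0
    rw [hTe, Point.xRep_some] at hv
    have hC : ∀ i, s i = Polynomial.C ((s i).coeff 0) := fun i =>
      eq_C_of_natDegree_le_zero (hs ▸ natDegree_le_maxDeg s i)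
    have e0 := hv 0
    have e1 := hv 1
    rw [hC] at e0 e1
    simp only [iota_C, Matrix.cons_val_zero, Matrix.cons_val_one] at e0 e1
    have hne : algebraMap F W.toAffine.FunctionField ((s 1).coeff 0) ≠ 0 := fun e => by
      rw [e, mul_zero] at e1; exact one_ne_zero e1
    have hx : x = algebraMap F W.toAffine.FunctionField ((s 0).coeff 0 / (s 1).coeff 0) := by
      rw [map_div₀, eq_div_iff hne]
      linear_combination (algebraMap F W.toAffine.FunctionField ((s 1).coeff 0)) * e0
        - algebraMap F W.toAffine.FunctionField ((s 0).coeff 0) * e1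
    refine ⟨?_, by rw [hTx, hx]⟩
    rw [← hTm, hTe, Point.map_some, xc_some, hx, AlgHom.commutes]
  by_contra hT0
  have hinj : ∀ m : ℤ, m ≠ 0 → m • T ≠ 0 := by
    intro m hm e
    obtain ⟨ε, hε⟩ := hmul m
    have h := (hε hm).1
    rw [e, ← map_zero (Point.map (W' := W.toAffine) ε)] at h
    exact hT0 (Point.map_injective (f := ε) h)
  obtain ⟨ε, hε⟩ := hmul 2
  obtain ⟨-, c, hc⟩ := hε two_ne_zero
  obtain ⟨h1, h2⟩ := hc hT0
  rcases eq_or_eq_neg_of_xc_eq (hinj 2 two_ne_zero) hT0 (h1.trans h2.symm) with e | e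
  · rw [two_zsmul, add_eq_left] at e
    exact hT0 e
  · refine hinj 3 three_ne_zero ?_
    rw [show (3 : ℤ) = 2 + 1 from rfl, add_zsmul, one_zsmul, e, neg_add_cancel]

/-- the quadratic relation at a point with transcendental x-coordinate -/
lemma relation_of_transcendental {E : Type*} [Field E] [Algebra F E] [DecidableEq E] {x y : E}
    (h : (W⁄E).Nonsingular x y) (htr : Transcendental F x) :
    frobPt W E (frobPt W E (.some x y h)) - frobTrace W • frobPt W E (.some x y h)
      + (q : ℤ) • (.some x y h : (W⁄E).Point) = 0 := by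
  obtain ⟨ε, hx, hy⟩ := exists_algHom_of_transcendental W h.1 htr
  have hG : Point.map ε (gen W) = .some x y h := by
    rw [gen, Point.map_some]
    simp [hx, hy]
  have hcomm : ∀ Q : (W⁄W.toAffine.FunctionField).Point,
      Point.map ε (Point.map (frobL W) Q) = frobPt W E (Point.map ε Q) := fun Q => by
    rw [frobPt, Point.map_map, Point.map_map,
      show ε.comp (frobL W) = (FiniteField.frobeniusAlgHom F E).comp ε from
        AlgHom.ext fun z => by simp [frobL]]
  have h' := congrArg (Point.map ε) (frobGen_relation W)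
  simpa [frobGen, hcomm, hG] using h'

/-- the quadratic relation on all points over an algebraic extension -/
theorem frobPt_relation (E : Type*) [Field E] [Algebra F E] [Algebra.IsAlgebraic F E]
    [DecidableEq E] (P : (W⁄E).Point) :
    frobPt W E (frobPt W E P) - frobTrace W • frobPt W E P + (q : ℤ) • P = 0 := by
  classical
  let Ω := AlgebraicClosure W.toAffine.FunctionField
  let ψ : E →ₐ[F] Ω := IsAlgClosed.lift
  have hψ : ∀ Q : (W⁄E).Point, Point.map ψ (frobPt W E Q) = frobPt W Ω (Point.map ψ Q) := fun Q => by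
    rw [frobPt, frobPt, Point.map_map, Point.map_map,
      show ψ.comp (FiniteField.frobeniusAlgHom F E) = (FiniteField.frobeniusAlgHom F Ω).comp ψ from
        AlgHom.ext fun z => by simp]
  apply Point.map_injective (f := ψ)
  rw [map_zero, map_add, map_sub, map_zsmul, map_zsmul, hψ, hψ]
  let θ : W.toAffine.FunctionField →ₐ[F] Ω := IsScalarTower.toAlgHom F _ Ω
  have htr : Transcendental F (θ (tGen W)) := by
    have h1 : Transcendental F (tGen W) := by
      have hd : HasDeg (iota W) ![tGen W, 1] 1 := by
        obtain ⟨m, hm, hdeg⟩ := hasHt_gen W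
        rw [show m = 1 by omega, gen, Point.xRep_some] at hdeg
        exact hdeg
      exact transcendental_of_hasDeg W hd le_rfl
    rintro ⟨f, hf0, hf⟩
    exact h1 ⟨f, hf0, (map_eq_zero_iff θ θ.injective).mp (by rw [← aeval_algHom_apply]; exact hf)⟩
  set Q : (W⁄Ω).Point := Point.map ψ P
  set G : (W⁄Ω).Point := Point.map θ (gen W) with hG
  have rG : frobPt W Ω (frobPt W Ω G) - frobTrace W • frobPt W Ω G + (q : ℤ) • G = 0 := by
    simp only [hG, gen, Point.map_some]
    exact relation_of_transcendental W _ htr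
  have rS : frobPt W Ω (frobPt W Ω (Q + G)) - frobTrace W • frobPt W Ω (Q + G)
      + (q : ℤ) • (Q + G) = 0 := by
    let Kb := algebraicClosure F Ω
    have hlift : ∀ Q' : (W⁄Ω).Point, (∀ x y h, Q' = .some x y h → IsAlgebraic F x) →
        ∃ R : (W⁄Kb).Point, Point.map Kb.val R = Q' := by
      intro Q' hQ'
      rcases Q' with _ | ⟨x, y, h⟩
      · exact ⟨0, map_zero _⟩
      · have hx : IsIntegral F x := (hQ' x y h rfl).isIntegral
        have hxK : x ∈ Kb := (mem_algebraicClosure_iff).mpr (hQ' x y h rfl)
        have hy : IsIntegral F y := by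
          have := h.1
          rw [Affine.equation_iff] at this
          simp only [WeierstrassCurve.baseChange, WeierstrassCurve.map_a₁, WeierstrassCurve.map_a₂,
            WeierstrassCurve.map_a₃, WeierstrassCurve.map_a₄, WeierstrassCurve.map_a₆] at this
          let c : Kb := ⟨x, hxK⟩
          have : IsIntegral Kb y := by
            refine ⟨Polynomial.X ^ 2 + Polynomial.C (algebraMap F Kb W.a₁ * c + algebraMap F Kb W.a₃)
              * Polynomial.X - Polynomial.C (c ^ 3 + algebraMap F Kb W.a₂ * c ^ 2
                + algebraMap F Kb W.a₄ * c + algebraMap F Kb W.a₆), by monicity!, ?_⟩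
            simp [← IsScalarTower.algebraMap_apply, c]
            linear_combination this
          have : Algebra.IsIntegral F Kb :=
            Algebra.IsAlgebraic.isIntegral
          exact isIntegral_trans (R := F) y ‹IsIntegral Kb y›
        have hyK : y ∈ Kb := (mem_algebraicClosure_iff).mpr hy.isAlgebraic
        refine ⟨.some ⟨x, hxK⟩ ⟨y, hyK⟩
          ((W.toAffine.baseChange_nonsingular (f := Kb.val) Kb.val.injective _ _).mp h), ?_⟩
        rfl
    have hQalg : ∀ x y h, Q = .some x y h → IsAlgebraic F x := by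
      intro x y h e
      rcases P with _ | ⟨a, b, hab⟩
      · exact absurd ((map_zero _).symm.trans e).symm (Point.some_ne_zero h)
      · rw [show Q = _ from Point.map_some (f := ψ) hab] at e
        simp only [Point.some.injEq] at e
        exact e.1 ▸ (Algebra.IsAlgebraic.isAlgebraic a).algHom ψ
    obtain ⟨RQ, hRQ⟩ := hlift Q hQalg
    by_cases hS : ∀ x y h, Q + G = .some x y h → IsAlgebraic F x
    · exfalso
      obtain ⟨RS, hRS⟩ := hlift _ hS
      have e : Point.map Kb.val (RS - RQ) = G := by rw [map_sub, hRS, hRQ, add_sub_cancel_left]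
      rw [hG, gen, Point.map_some] at e
      rcases hR : RS - RQ with _ | ⟨a, b, hab⟩
      · rw [hR, ← Point.zero_def, map_zero] at e
        exact Point.some_ne_zero _ e.symm
      · rw [hR, Point.map_some] at e
        simp only [Point.some.injEq] at e
        exact htr (e.1 ▸ (Algebra.IsAlgebraic.isAlgebraic a).algHom Kb.val)
    · push Not at hS
      obtain ⟨x, y, h, e, hx⟩ := hS
      rw [e]
      exact relation_of_transcendental W h hx
  simp only [map_add, zsmul_add] at rS
  linear_combination (norm := abel) rS - rG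

end FLTAgent.EllFrob
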