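import Fermat.Agent.EllFrob.Generic

set_option autoImplicit false
set_option linter.unusedSectionVars false

/-!
The degree of `Frobenius - 1` is the number of rational points.
-/

noncomputable section

namespace FLTAgent.EllFrob

open Polynomial WeierstrassCurve WeierstrassCurve.Affine FLTAgent.Torsion
open scoped WeierstrassCurve.Affine Polynomial.Bivariate

variable {F : Type*} [Field F] [Fintype F] (W : WeierstrassCurve F)

local notation "q" => Fintype.card F

/-- Frobenius on points over an extension of the finite field -/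
def frobPt (E : Type*) [Field E] [Algebra F E] [DecidableEq E] :
    (W⁄E).Point →+ (W⁄E).Point :=
  Point.map (FiniteField.frobeniusAlgHom F E)

/-- numerator of `x(Frob P - P)` -/
def subNum {R : Type*} [CommRing R] (W' : WeierstrassCurve R) (n : ℕ) (t y : R) : R :=
  (y ^ n + y + W'.a₁ * t + W'.a₃) * (y ^ n + y + W'.a₁ * t + W'.a₃ + W'.a₁ * (t ^ n - t))
    - (t ^ n - t) ^ 2 * (W'.a₂ + t ^ n + t)

lemma map_subNum {R S : Type*} [CommRing R] [CommRing S] (W' : WeierstrassCurve R) (f : R →+* S)
    (n : ℕ) (t y : R) : f (subNum W' n t y) = subNum (W'.map f) n (f t) (f y) := by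
  simp [subNum]

lemma frobPt_some {E : Type*} [Field E] [Algebra F E] [DecidableEq E] {r s : E}
    (h : (W⁄E).Nonsingular r s) :
    ∃ h', frobPt W E (.some r s h) = .some (r ^ q) (s ^ q) h' :=
  ⟨_, rfl⟩

/-- x-coordinate of `Frob Q - Q` -/
lemma xc_frob_sub {E : Type*} [Field E] [Algebra F E] [DecidableEq E] {r s : E}
    (h : (W⁄E).Nonsingular r s) (hr : r ^ q ≠ r) :
    frobPt W E (.some r s h) - .some r s h ≠ 0 ∧
    xc (W := (W⁄E)) (frobPt W E (.some r s h) - .some r s h) * (r ^ q - r) ^ 2
      = subNum (W⁄E) q r s := by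
  obtain ⟨h', e⟩ := frobPt_some W h
  rw [e, sub_eq_add_neg, Point.neg_some, Point.add_of_X_ne hr]
  refine ⟨Point.some_ne_zero _, ?_⟩
  rw [xc_some, slope_of_X_ne hr]
  have hd : r ^ q - r ≠ 0 := sub_ne_zero.mpr hr
  simp only [subNum, Affine.addX, Affine.negY]
  field_simp
  ring

variable [W.IsElliptic]

/-- `δ = X^q - X` -/
def delta : F[X] := Polynomial.X ^ q - Polynomial.X

lemma delta_monic : (delta (F := F)).Monic :=
  monic_X_pow_sub (by rw [degree_X]; exact_mod_cast Fintype.one_lt_card)

lemma natDegree_delta : (delta (F := F)).natDegree = q :=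
  FiniteField.X_pow_card_sub_X_natDegree_eq F Fintype.one_lt_card

lemma conj_subNum :
    conjRing W (subNum (W.map (algebraMap F W.toAffine.CoordinateRing)) q
      (algebraMap F[X] W.toAffine.CoordinateRing Polynomial.X) (CoordinateRing.mk W.toAffine Y))
    = subNum (W.map (algebraMap F W.toAffine.CoordinateRing)) q
      (algebraMap F[X] W.toAffine.CoordinateRing Polynomial.X) (CoordinateRing.mk W.toAffine Y) := by
  obtain ⟨p, hp⟩ := CharP.exists F
  obtain ⟨n, hpp, hn⟩ := FiniteField.card F p
  have : Fact p.Prime := ⟨hpp⟩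
  have : CharP W.toAffine.CoordinateRing p :=
    charP_of_injective_algebraMap (FaithfulSMul.algebraMap_injective F W.toAffine.CoordinateRing) p
  set t := algebraMap F[X] W.toAffine.CoordinateRing Polynomial.X with ht
  set y := CoordinateRing.mk W.toAffine Y with hy
  have hc : ∀ c : F, algebraMap F W.toAffine.CoordinateRing c
      = algebraMap F[X] W.toAffine.CoordinateRing (Polynomial.C c) := fun c => rfl
  have hq : ∀ c : F, algebraMap F W.toAffine.CoordinateRing c ^ q
      = algebraMap F W.toAffine.CoordinateRing c := fun c => by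
    rw [← map_pow, FiniteField.pow_card]
  have hY : conjRing W y = -y - (algebraMap F W.toAffine.CoordinateRing W.a₁ * t
      + algebraMap F W.toAffine.CoordinateRing W.a₃) := by
    rw [hy, conjRing_Y, map_add, map_mul, hc, hc]
  have hpow : conjRing W y ^ q = -(y ^ q) - (algebraMap F W.toAffine.CoordinateRing W.a₁ * t ^ q
      + algebraMap F W.toAffine.CoordinateRing W.a₃) := by
    rw [hY, hn, sub_pow_char_pow, add_pow_char_pow, mul_pow]
    have e1 : (-y : W.toAffine.CoordinateRing) ^ p ^ (n : ℕ) = -(y ^ p ^ (n : ℕ)) := by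
      have h0 := sub_pow_char_pow (p := p) (n := (n : ℕ)) (0 : W.toAffine.CoordinateRing) y
      rw [zero_sub, zero_pow (pow_ne_zero _ hpp.ne_zero), zero_sub] at h0
      exact h0
    rw [e1, ← hn, hq, hq]
  have ht' : conjRing W t = t := conjRing_of W _
  have hA : ∀ c : F, conjRing W (algebraMap F W.toAffine.CoordinateRing c)
      = algebraMap F W.toAffine.CoordinateRing c := fun c => by rw [hc]; exact conjRing_of W _
  simp only [subNum, WeierstrassCurve.map_a₁, WeierstrassCurve.map_a₂, WeierstrassCurve.map_a₃,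
    map_sub, map_mul, map_add, map_pow, ht', hA, hpow]
  simp only [hY]
  ring

lemma exists_subPoly : ∃ R : F[X],
    subNum (W.map (algebraMap F W.toAffine.CoordinateRing)) q
      (algebraMap F[X] W.toAffine.CoordinateRing Polynomial.X) (CoordinateRing.mk W.toAffine Y)
    = algebraMap F[X] W.toAffine.CoordinateRing R :=
  mem_range_of_conj W (conj_subNum W)

/-- the numerator polynomial of `x(Frob - 1)` -/
def subPoly : F[X] := (exists_subPoly W).choose

lemma iota_subPoly :
    iota W (subPoly W) = subNum (W⁄W.toAffine.FunctionField) q (tGen W) (yGen W) := by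
  have h := congrArg (algebraMap W.toAffine.CoordinateRing W.toAffine.FunctionField)
    (exists_subPoly W).choose_spec
  rw [map_subNum, WeierstrassCurve.map_map] at h
  exact h.symm

lemma eval_subPoly {E : Type*} [Field E] [Algebra F E] {r s : E}
    (h : (W⁄E).Equation r s) :
    (subPoly W).eval₂ (algebraMap F E) r = subNum (W⁄E) q r s := by
  let ev : W.toAffine.CoordinateRing →+* E :=
    AdjoinRoot.lift (Polynomial.eval₂RingHom (algebraMap F E) r) s (by
      rw [Affine.equation_iff'] at h
      simp only [WeierstrassCurve.baseChange, WeierstrassCurve.map_a₁, WeierstrassCurve.map_a₂,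
        WeierstrassCurve.map_a₃, WeierstrassCurve.map_a₄, WeierstrassCurve.map_a₆] at h
      simp [Affine.polynomial, Polynomial.eval₂_pow]
      linear_combination h)
  have e := congrArg ev (exists_subPoly W).choose_spec
  rw [map_subNum] at e
  have h1 : ∀ f : F[X], ev (algebraMap F[X] W.toAffine.CoordinateRing f)
      = f.eval₂ (algebraMap F E) r := fun f => AdjoinRoot.lift_of _
  have hW : (W.map (algebraMap F W.toAffine.CoordinateRing)).map ev = (W⁄E) := by
    rw [WeierstrassCurve.map_map]
    congr 1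
    ext c
    show ev (algebraMap F[X] W.toAffine.CoordinateRing (Polynomial.C c)) = _
    rw [h1, eval₂_C]
  rw [hW, h1, h1, eval₂_X, show ev (CoordinateRing.mk W.toAffine Y) = s from AdjoinRoot.lift_root _]
    at e
  exact e.symm

lemma natDegree_subPoly :
    (subPoly W).natDegree = 2 * q + 1 ∧ (subPoly W).coeff (2 * q + 1) = 1 := by
  classical
  have hq2 : 2 ≤ q := Fintype.one_lt_card
  set R := subPoly W with hR
  set S : F[X] := 2 * Polynomial.X ^ q * Polynomial.X * (Polynomial.X ^ q + Polynomial.X)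
    + Polynomial.C W.b₂ * Polynomial.X ^ q * Polynomial.X
    + Polynomial.C W.b₄ * (Polynomial.X ^ q + Polynomial.X) + Polynomial.C W.b₆ with hS
  set PP : F[X] := (Polynomial.X ^ q) ^ 2 * Polynomial.X ^ 2
    - Polynomial.C W.b₄ * Polynomial.X ^ q * Polynomial.X
    - Polynomial.C W.b₆ * (Polynomial.X ^ q + Polynomial.X) - Polynomial.C W.b₈ with hPP
  have hne : (tGen W) ^ q ≠ tGen W := by
    intro e
    have : iota W (delta (F := F)) = 0 := by
      rw [delta, map_sub, map_pow]; exact sub_eq_zero.mpr e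
    exact delta_monic.ne_zero ((map_eq_zero_iff _ (iota_injective W)).mp this)
  have hgen : gen W = .some (tGen W) (yGen W) _ := rfl
  obtain ⟨h1, hx⟩ := xc_frob_sub W (r := tGen W) (s := yGen W)
    ((equation_iff_nonsingular).mp (equation_gen W)) hne
  set Pm := frobPt W W.toAffine.FunctionField (gen W) with hPm
  obtain ⟨-, -, hs, hp⟩ := xc_add_sub (W := (W⁄W.toAffine.FunctionField)) (Q := Pm)
    (P := gen W) (Point.some_ne_zero _) (Point.some_ne_zero _) hne
  change (xc (Pm + gen W) + xc (Pm - gen W)) * (tGen W ^ q - tGen W) ^ 2 = _ at hs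
  change (xc (Pm + gen W) * xc (Pm - gen W)) * (tGen W ^ q - tGen W) ^ 2 = _ at hp
  change xc (Pm - gen W) * (tGen W ^ q - tGen W) ^ 2 = _ at hx
  rw [← iota_subPoly] at hx
  have eS : iota W S = sumNum (W⁄W.toAffine.FunctionField) (tGen W ^ q) (tGen W) := by
    simp [hS, sumNum, tGen, WeierstrassCurve.baseChange, ← iota_C, map_ofNat]
  have ePP : iota W PP = prodNum (W⁄W.toAffine.FunctionField) (tGen W ^ q) (tGen W) := by
    simp [hPP, prodNum, tGen, WeierstrassCurve.baseChange, ← iota_C]
  have hδ : iota W (delta (F := F)) = tGen W ^ q - tGen W := by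
    rw [delta, map_sub, map_pow]; rfl
  have hRR : R * (S - R) = PP * delta ^ 2 := by
    apply iota_injective W
    simp only [map_mul, map_sub, map_pow, eS, ePP, hδ]
    have hs' : sumNum (W⁄W.toAffine.FunctionField) (tGen W ^ q) (tGen W) - iota W (subPoly W)
        = xc (Pm + gen W) * (tGen W ^ q - tGen W) ^ 2 := by
      rw [← hx]
      have : (xc (Pm + gen W) + xc (Pm - gen W)) * (tGen W ^ q - tGen W) ^ 2
        = sumNum (W⁄W.toAffine.FunctionField) (tGen W ^ q) (tGen W) := hs
      linear_combination -this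
    rw [hR, hs', ← hx]
    have : (xc (Pm + gen W) * xc (Pm - gen W)) * (tGen W ^ q - tGen W) ^ 2
        = prodNum (W⁄W.toAffine.FunctionField) (tGen W ^ q) (tGen W) := hp
    linear_combination (tGen W ^ q - tGen W) ^ 2 * this
  have hSdeg : S.natDegree ≤ 2 * q + 1 ∧ S.coeff (2 * q + 1) = 2 := by
    have e : S = Polynomial.C 2 * Polynomial.X ^ (2 * q + 1) + Polynomial.C 2 * Polynomial.X ^ (q + 2)
        + Polynomial.C W.b₂ * Polynomial.X ^ (q + 1) + Polynomial.C W.b₄ * Polynomial.X ^ q
        + Polynomial.C W.b₄ * Polynomial.X ^ 1 + Polynomial.C W.b₆ * Polynomial.X ^ 0 := by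
      simp [hS, map_ofNat]; ring
    have m := fun (c : F) (i : ℕ) => natDegree_C_mul_X_pow_le c i
    refine ⟨?_, ?_⟩
    · rw [e]
      refine (natDegree_add_le _ _).trans (max_le ((natDegree_add_le _ _).trans (max_le
        ((natDegree_add_le _ _).trans (max_le ((natDegree_add_le _ _).trans (max_le
          ((natDegree_add_le _ _).trans (max_le ((m _ _).trans le_rfl) ((m _ _).trans ?_)))
          ((m _ _).trans ?_))) ((m _ _).trans ?_))) ((m _ _).trans ?_))) ((m _ _).trans ?_)) <;>
        omega
    · rw [e]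
      simp only [coeff_add, coeff_C_mul_X_pow]
      rw [if_pos trivial, if_neg (by omega), if_neg (by omega), if_neg (by omega), if_neg (by omega),
        if_neg (by omega)]
      simp
  have hPPdeg : PP.natDegree = 2 * q + 2 ∧ PP.coeff (2 * q + 2) = 1 := by
    have e : PP = Polynomial.X ^ (2 * q + 2) - (Polynomial.C W.b₄ * Polynomial.X ^ (q + 1)
        + Polynomial.C W.b₆ * Polynomial.X ^ q + Polynomial.C W.b₆ * Polynomial.X ^ 1
        + Polynomial.C W.b₈ * Polynomial.X ^ 0) := by
      simp [hPP]; ring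
    have m := fun (c : F) (i : ℕ) => natDegree_C_mul_X_pow_le c i
    have hlow : (Polynomial.C W.b₄ * Polynomial.X ^ (q + 1)
        + Polynomial.C W.b₆ * Polynomial.X ^ q + Polynomial.C W.b₆ * Polynomial.X ^ 1
        + Polynomial.C W.b₈ * Polynomial.X ^ 0).natDegree < 2 * q + 2 := by
      refine lt_of_le_of_lt ((natDegree_add_le _ _).trans (max_le
        ((natDegree_add_le _ _).trans (max_le ((natDegree_add_le _ _).trans (max_le
          ((m _ _).trans le_rfl) ((m _ _).trans ?_))) ((m _ _).trans ?_))) ((m _ _).trans ?_)))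
        (show q + 1 < 2 * q + 2 by omega) <;> omega
    refine ⟨?_, ?_⟩
    · rw [e, natDegree_sub_eq_left_of_natDegree_lt (by rwa [natDegree_X_pow]), natDegree_X_pow]
    · rw [e, coeff_sub, coeff_X_pow_self, coeff_eq_zero_of_natDegree_lt hlow, sub_zero]
  have hPP0 : PP ≠ 0 := fun e => by rw [e, coeff_zero] at hPPdeg; exact zero_ne_one hPPdeg.2
  have hδ2 : ((delta (F := F)) ^ 2).natDegree = 2 * q := by rw [natDegree_pow, natDegree_delta]
  have hprod : (PP * delta ^ 2).natDegree = 4 * q + 2 ∧
      (PP * delta ^ 2).leadingCoeff = 1 := by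
    refine ⟨?_, ?_⟩
    · rw [natDegree_mul hPP0 (pow_ne_zero _ delta_monic.ne_zero), hPPdeg.1, hδ2]; ring
    · rw [leadingCoeff_mul, leadingCoeff_pow, delta_monic.leadingCoeff, one_pow, mul_one,
        leadingCoeff, hPPdeg.1, hPPdeg.2]
  have hR0 : R ≠ 0 := fun e => by
    rw [e, zero_mul] at hRR
    exact mul_ne_zero hPP0 (pow_ne_zero _ delta_monic.ne_zero) hRR.symm
  have hR'0 : S - R ≠ 0 := fun e => by
    rw [e, mul_zero] at hRR
    exact mul_ne_zero hPP0 (pow_ne_zero _ delta_monic.ne_zero) hRR.symm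
  have hsum := congrArg natDegree hRR
  rw [natDegree_mul hR0 hR'0, hprod.1] at hsum
  have hle : R.natDegree ≤ 2 * q + 1 := by
    by_contra hgt
    push Not at hgt
    have : (S - R).natDegree = R.natDegree :=
      natDegree_sub_eq_right_of_natDegree_lt (lt_of_le_of_lt hSdeg.1 hgt)
    omega
  have hle' : (S - R).natDegree ≤ 2 * q + 1 :=
    (natDegree_sub_le _ _).trans (max_le hSdeg.1 hle)
  have hdeg : R.natDegree = 2 * q + 1 := by omega
  refine ⟨hdeg, ?_⟩
  have hdeg' : (S - R).natDegree = 2 * q + 1 := by omega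
  have hl := congrArg leadingCoeff hRR
  rw [leadingCoeff_mul, hprod.2, leadingCoeff, leadingCoeff, hdeg, hdeg', coeff_sub, hSdeg.2] at hl
  have : (R.coeff (2 * q + 1) - 1) ^ 2 = 0 := by linear_combination -hl
  exact sub_eq_zero.mp (pow_eq_zero_iff (n := 2) (by norm_num) |>.mp this)

lemma exists_fixed_of_pow {E : Type*} [Field E] [Algebra F E] {r : E} (hr : r ^ q = r) :
    ∃ c : F, algebraMap F E c = r := by
  classical
  set f : F[X] := Polynomial.X ^ q - Polynomial.X with hf
  have hroots : f.roots.map (algebraMap F E) = (f.map (algebraMap F E)).roots := by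
    refine Polynomial.roots_map_of_injective_of_card_eq_natDegree (algebraMap F E).injective ?_
    rw [hf, FiniteField.roots_X_pow_card_sub_X,
      FiniteField.X_pow_card_sub_X_natDegree_eq F Fintype.one_lt_card]
    rfl
  have hmem : r ∈ (f.map (algebraMap F E)).roots := by
    rw [mem_roots']
    refine ⟨(Polynomial.map_ne_zero_iff (algebraMap F E).injective).mpr
      (FiniteField.X_pow_card_sub_X_ne_zero F Fintype.one_lt_card), ?_⟩
    simp [hf, hr]
  rw [← hroots, Multiset.mem_map] at hmem
  obtain ⟨c, -, hc⟩ := hmem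
  exact ⟨c, hc⟩

theorem card_frobPt_fixed (E : Type*) [Field E] [Algebra F E] [DecidableEq E] [DecidableEq F] :
    Nat.card {Q : (W⁄E).Point // frobPt W E Q - Q = 0} = W.card := by
  have hW : (W⁄F) = W.toAffine := by simp [WeierstrassCurve.baseChange]
  have hcard : W.card = Nat.card (W⁄F).Point := by rw [WeierstrassCurve.card, hW]
  rw [hcard]
  refine (Nat.card_eq_of_bijective
    (fun P : (W⁄F).Point => (⟨Point.map (Algebra.ofId F E) P, ?_⟩ :
      {Q : (W⁄E).Point // frobPt W E Q - Q = 0})) ⟨?_, ?_⟩).symm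
  · rw [sub_eq_zero, frobPt]
    rcases P with _ | ⟨a, b, hab⟩
    · simp [← Point.zero_def]
    · simp [Point.map_some]
  · intro a b e
    exact Point.map_injective (f := Algebra.ofId F E) (congrArg Subtype.val e)
  · rintro ⟨Q, hQ⟩
    rw [sub_eq_zero] at hQ
    rcases Q with _ | ⟨r, s, h⟩
    · exact ⟨0, rfl⟩
    · obtain ⟨h', e⟩ := frobPt_some W h
      rw [e] at hQ
      simp only [Point.some.injEq] at hQ
      obtain ⟨a, rfl⟩ := exists_fixed_of_pow hQ.1
      obtain ⟨b, rfl⟩ := exists_fixed_of_pow hQ.2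
      exact ⟨.some a b ((W.toAffine.baseChange_nonsingular (Algebra.ofId F E).injective a b).mp h), rfl⟩

lemma exists_equation {K : Type*} [Field K] [IsAlgClosed K] (E : WeierstrassCurve K) (x : K) :
    ∃ y, E.toAffine.Equation x y := by
  obtain ⟨y, hy⟩ := IsAlgClosed.exists_root (Polynomial.C (1 : K) * Polynomial.X ^ 2
    + Polynomial.C (E.a₁ * x + E.a₃) * Polynomial.X
    + Polynomial.C (-(x ^ 3 + E.a₂ * x ^ 2 + E.a₄ * x + E.a₆)))
    (by rw [degree_quadratic one_ne_zero]; norm_num)
  refine ⟨y, ?_⟩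
  rw [equation_iff]
  simp [IsRoot] at hy
  linear_combination hy

theorem hasHt_frob_sub :
    HasHt (iota W) (frobGen W - gen W) (W.card : ℤ) := by
  classical
  have hq2 : 2 ≤ q := Fintype.one_lt_card
  set K := AlgebraicClosure F with hK
  set φ := algebraMap F K with hφ
  set R := subPoly W with hR
  obtain ⟨hRdeg, hRlead⟩ := natDegree_subPoly W
  have hR0 : R ≠ 0 := fun e => by rw [hR] at e; rw [e, coeff_zero] at hRlead; exact zero_ne_one hRlead
  set D : F[X] := delta ^ 2 with hD
  have hD0 : D ≠ 0 := pow_ne_zero _ delta_monic.ne_zero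
  have hDdeg : D.natDegree = 2 * q := by rw [hD, natDegree_pow, natDegree_delta]
  obtain ⟨A, hA⟩ := GCDMonoid.gcd_dvd_left R D
  obtain ⟨B, hB⟩ := GCDMonoid.gcd_dvd_right R D
  set g := gcd R D with hg
  have hg0 : g ≠ 0 := fun e => hD0 (by rw [hB, e, zero_mul])
  have hA0 : A ≠ 0 := fun e => hR0 (by rw [hA, e, mul_zero])
  have hB0 : B ≠ 0 := fun e => hD0 (by rw [hB, e, mul_zero])
  have hcop : IsCoprime A B := by
    obtain ⟨a, b, hab⟩ := exists_gcd_eq_mul_add_mul R D
    refine ⟨a, b, ?_⟩
    apply mul_left_cancel₀ hg0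
    linear_combination (-a) * hA - b * hB - hab
  have hdeg : A.natDegree = B.natDegree + 1 := by
    have e1 := congrArg natDegree hA
    have e2 := congrArg natDegree hB
    rw [natDegree_mul hg0 hA0, hRdeg] at e1
    rw [natDegree_mul hg0 hB0, hDdeg] at e2
    omega
  set h := A.natDegree with hh
  -- degree of the generic point
  have hne : (tGen W) ^ q ≠ tGen W := by
    intro e
    have : iota W (delta (F := F)) = 0 := by
      rw [delta, map_sub, map_pow]; exact sub_eq_zero.mpr e
    exact delta_monic.ne_zero ((map_eq_zero_iff _ (iota_injective W)).mp this)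
  obtain ⟨hP0, hx⟩ := xc_frob_sub W (r := tGen W) (s := yGen W)
    ((equation_iff_nonsingular).mp (equation_gen W)) hne
  rw [← iota_subPoly] at hx
  change frobGen W - gen W ≠ 0 at hP0
  change xc (frobGen W - gen W) * (tGen W ^ q - tGen W) ^ 2 = iota W R at hx
  have hxB : xc (frobGen W - gen W) * iota W B = iota W A := by
    have hιg : iota W g ≠ 0 := (map_ne_zero_iff _ (iota_injective W)).mpr hg0
    apply mul_left_cancel₀ hιg
    have eA := congrArg (iota W) hA
    have eB := congrArg (iota W) hB
    rw [map_mul] at eA eB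
    rw [hD, map_pow, delta, map_sub, map_pow] at eB
    change (tGen W ^ q - tGen W) ^ 2 = _ at eB
    linear_combination hx + eA - xc (frobGen W - gen W) * eB
  obtain ⟨a, b, hab, hPe, hxc⟩ := exists_some_of_ne_zero hP0
  suffices hcount : h = W.card by
    refine ⟨h, by exact_mod_cast hcount, ![A, B], Primitive.of_isCoprime hcop, ?_,
      (iota W B)⁻¹, inv_ne_zero ((map_ne_zero_iff _ (iota_injective W)).mpr hB0), ?_⟩
    · refine maxDeg_eq_of (fun i => ?_) ⟨0, ?_⟩
      · fin_cases i
        · exact le_rfl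
        · show B.natDegree ≤ h
          omega
      · show A.coeff h ≠ 0
        rw [hh]
        exact leadingCoeff_ne_zero.mpr hA0
    · intro i
      rw [hxc] at hxB
      rw [hPe, Point.xRep_some]
      have hιB : iota W B ≠ 0 := (map_ne_zero_iff _ (iota_injective W)).mpr hB0
      fin_cases i
      · simp [← hxB]; field_simp
      · simp [hιB]
  -- counting over the algebraic closure
  have hKell : (W⁄K).IsElliptic := inferInstanceAs (W.map (algebraMap F K)).IsElliptic
  set Wr := derivative A * B - A * derivative B with hWr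
  have hWr0 : Wr ≠ 0 := by
    intro e
    have e' := congrArg (fun f => coeff f (B.natDegree + B.natDegree)) e
    simp only [hWr, coeff_sub, coeff_zero] at e'
    have dA' : (derivative A).natDegree ≤ B.natDegree :=
      (natDegree_derivative_le A).trans (by omega)
    rw [coeff_mul_add_eq_of_natDegree_le dA' le_rfl, coeff_derivative, ← hdeg] at e'
    have hbl : B.coeff B.natDegree ≠ 0 := leadingCoeff_ne_zero.mpr hB0
    have hal : A.coeff A.natDegree ≠ 0 := leadingCoeff_ne_zero.mpr hA0
    rcases Nat.eq_zero_or_pos B.natDegree with hj | hj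
    · have hB' : derivative B = 0 := by rw [eq_C_of_natDegree_eq_zero hj, derivative_C]
      rw [hB', mul_zero, coeff_zero, sub_zero, hj] at e'
      simp at e'
      rw [hj] at hbl
      exact (e'.resolve_right hbl) |> hal
    · obtain ⟨j, hj'⟩ : ∃ j, B.natDegree = j + 1 := ⟨B.natDegree - 1, by omega⟩
      rw [show B.natDegree + B.natDegree = A.natDegree + j by omega,
        coeff_mul_add_eq_of_natDegree_le le_rfl ((natDegree_derivative_le B).trans (by omega)),
        coeff_derivative] at e'
      rw [hj'] at e'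
      have : A.coeff A.natDegree * B.coeff (j + 1) = 0 := by push_cast at e'; linear_combination e'
      rw [← hj'] at this
      exact mul_ne_zero hal hbl this
  set AK := A.map φ with hAK
  set BK := B.map φ with hBK
  set WrK := Wr.map φ with hWrK
  set δK := (delta (F := F)).map φ with hδK
  set P2 := (W⁄K).Ψ₂Sq with hP2
  have hP20 : P2 ≠ 0 := by
    intro e
    obtain ⟨y, hy⟩ := exists_equation (W⁄K) 0
    by_cases h2 : (2 : K) = 0
    · -- characteristic two
      have c0 := congrArg (fun f => Polynomial.coeff f 2) e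
      have c2 := congrArg (fun f => Polynomial.coeff f 0) e
      simp [hP2, WeierstrassCurve.Ψ₂Sq, coeff_X] at c0 c2
      simp only [b₂, b₆] at c0 c2
      have ha1 : (W⁄K).a₁ = 0 := by
        refine pow_eq_zero_iff (n := 2) (by norm_num) |>.mp ?_
        linear_combination c0 - 2 * (W⁄K).a₂ * h2
      have ha3 : (W⁄K).a₃ = 0 := by
        refine pow_eq_zero_iff (n := 2) (by norm_num) |>.mp ?_
        linear_combination c2 - 2 * (W⁄K).a₆ * h2
      apply (W⁄K).isUnit_Δ.ne_zero
      simp only [WeierstrassCurve.Δ, b₂, b₄, b₆, b₈, ha1, ha3]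
      linear_combination (-8 * (W⁄K).a₂ ^ 2 * (4 * (W⁄K).a₂ * (W⁄K).a₆ - (W⁄K).a₄ ^ 2)
        - 32 * (W⁄K).a₄ ^ 3 - 216 * (W⁄K).a₆ ^ 2 + 144 * (W⁄K).a₂ * (W⁄K).a₄ * (W⁄K).a₆) * h2
    · exact (W⁄K).Ψ₂Sq_ne_zero (by
        rw [show (4 : K) = 2 * 2 by norm_num]; exact mul_ne_zero h2 h2) e
  obtain ⟨c, hc⟩ := Infinite.exists_notMem_finset
    (WrK.roots.toFinset.image (fun r => AK.eval r / BK.eval r)
      ∪ δK.roots.toFinset.image (fun r => AK.eval r / BK.eval r)
      ∪ δK.roots.toFinset.image (fun r => ((W⁄K).Φ 2).eval r / P2.eval r)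
      ∪ P2.roots.toFinset)
  simp only [Finset.mem_union, not_or] at hc
  obtain ⟨⟨⟨hc1, hc2⟩, hc3⟩, hc4⟩ := hc
  have hc4' : P2.eval c ≠ 0 := fun e => hc4 (by simp [mem_roots, hP20, IsRoot, e])
  obtain ⟨y, hy⟩ : ∃ y, (W⁄K).toAffine.Nonsingular c y :=
    (exists_equation (W⁄K) c).imp fun _ => (equation_iff_nonsingular).mp
  set Rc : (W⁄K).Point := .some c y hy with hRc
  have hRne : -Rc ≠ Rc := by
    rw [hRc, Point.neg_some]
    intro e
    have e' : (W⁄K).negY c y = y := by simpa using e
    apply hc4'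
    rw [hP2, ← pY_sq hy.1, eq_negY_iff_pY.mp e'.symm]
    ring
  have hBcop : IsCoprime AK BK := hcop.map (Polynomial.mapRingHom φ)
  have hABne : ∀ r, BK.eval r = 0 → AK.eval r ≠ 0 := fun r hr hr' => by
    obtain ⟨u, v, huv⟩ := hBcop
    have := congrArg (Polynomial.eval r) huv
    simp [hr, hr'] at this
  set p := AK - Polynomial.C c * BK with hp
  have hdA : AK.natDegree = h := by rw [hAK, natDegree_map]
  have hdB : (Polynomial.C c * BK).natDegree < h :=
    lt_of_le_of_lt (natDegree_C_mul_le _ _) (by rw [hBK, natDegree_map]; omega)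
  have hdp : p.natDegree = h := by
    rw [hp, natDegree_sub_eq_left_of_natDegree_lt (hdA.symm ▸ hdB), hdA]
  have hp0 : p ≠ 0 := fun e => by rw [e, natDegree_zero] at hdp; omega
  have hBr : ∀ r, p.eval r = 0 → BK.eval r ≠ 0 := fun r hr hBr =>
    hABne r hBr (by simpa [hp, hBr] using hr)
  have hδr : ∀ r, p.eval r = 0 → δK.eval r ≠ 0 := by
    intro r hr hd
    apply hc2
    have hδ0 : δK ≠ 0 := (delta_monic.map φ).ne_zero
    simp only [Finset.mem_image, Multiset.mem_toFinset, mem_roots hδ0]
    refine ⟨r, hd, ?_⟩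
    rw [div_eq_iff (hBr r hr)]
    simp [hp] at hr
    linear_combination hr
  have hnodup : p.roots.Nodup := by
    rw [Multiset.nodup_iff_count_le_one]
    intro r
    rw [count_roots]
    by_contra hlt
    push Not at hlt
    obtain ⟨h1, h2⟩ := (one_lt_rootMultiplicity_iff_isRoot hp0).mp hlt
    have hBr' := hBr r h1
    apply hc1
    have hWrK0 : WrK ≠ 0 := (Polynomial.map_ne_zero_iff φ.injective).mpr hWr0
    simp only [Finset.mem_image, Multiset.mem_toFinset, mem_roots hWrK0]
    simp [hp, IsRoot] at h1 h2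
    refine ⟨r, ?_, ?_⟩
    · simp [hWrK, hWr, Polynomial.map_sub, Polynomial.map_mul, ← derivative_map, ← hAK, ← hBK,
        IsRoot]
      linear_combination BK.eval r * h2 - (derivative BK).eval r * h1
    · rw [div_eq_iff hBr']
      linear_combination h1
  have hroots : p.roots.toFinset.card = h := by
    rw [Multiset.toFinset_card_of_nodup hnodup, IsAlgClosed.card_roots_eq_natDegree, hdp]
  -- evaluation
  have heval : ∀ (r s : K) (hrs : (W⁄K).Nonsingular r s), δK.eval r ≠ 0 →
      frobPt W K (.some r s hrs) - .some r s hrs ≠ 0 ∧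
      xc (frobPt W K (.some r s hrs) - .some r s hrs) * BK.eval r = AK.eval r := by
    intro r s hrs hd
    have hd' : r ^ q - r ≠ 0 := by simpa [hδK, delta] using hd
    obtain ⟨h1, h2⟩ := xc_frob_sub W hrs (sub_ne_zero.mp hd')
    refine ⟨h1, ?_⟩
    rw [← eval_subPoly W hrs.1] at h2
    have eA := congrArg (Polynomial.eval₂ φ r) hA
    have eB := congrArg (Polynomial.eval₂ φ r) hB
    simp only [hD, delta, eval₂_mul, eval₂_pow, eval₂_sub, eval₂_X] at eA eB
    have hgr : g.eval₂ φ r ≠ 0 := fun e =>
      pow_ne_zero 2 hd' (by rw [eB, e, zero_mul])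
    rw [hBK, hAK, eval_map, eval_map]
    apply mul_left_cancel₀ hgr
    linear_combination h2 + eA
      - xc (frobPt W K (.some r s hrs) - .some r s hrs) * eB
  have hfib : ∀ Q : (W⁄K).Point, frobPt W K Q - Q = Rc →
      Q ≠ 0 ∧ xc Q ∈ p.roots.toFinset := by
    intro Q hQ
    have hQ0 : Q ≠ 0 := by
      rintro rfl
      rw [map_zero, sub_zero] at hQ
      exact Point.some_ne_zero hy hQ.symm
    refine ⟨hQ0, ?_⟩
    obtain ⟨r, s, hrs, rfl, -⟩ := exists_some_of_ne_zero hQ0
    have hd : δK.eval r ≠ 0 := by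
      intro hd
      have hd' : r ^ q = r := sub_eq_zero.mp (by simpa [hδK, delta] using hd)
      obtain ⟨h', e⟩ := frobPt_some W hrs
      rcases Y_eq_of_X_eq h'.1 hrs.1 hd' with hy' | hy'
      · rw [e] at hQ
        have : Point.some (r ^ q) (s ^ q) h' = Point.some r s hrs := by
          simp [Point.some.injEq, hd', hy']
        rw [this, sub_self] at hQ
        exact Point.some_ne_zero hy hQ.symm
      · have hneg : Point.some (r ^ q) (s ^ q) h' = -Point.some r s hrs := by
          rw [Point.neg_some]; simp [Point.some.injEq, hd', hy']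
        rw [e, hneg, ← neg_add'] at hQ
        apply hc3
        have hδ0 : δK ≠ 0 := (delta_monic.map φ).ne_zero
        simp only [Finset.mem_image, Multiset.mem_toFinset, mem_roots hδ0]
        refine ⟨r, hd, ?_⟩
        have hpy : pY (W⁄K) r s ≠ 0 := fun e0 => by
          rw [Point.add_self_of_Y_eq (eq_negY_iff_pY.mpr e0), neg_zero] at hQ
          exact Point.some_ne_zero hy hQ.symm
        obtain ⟨-, hv⟩ := xc_two (h := hrs) hpy
        rw [← xc_neg, hQ, hRc, xc_some] at hv
        rw [hP2, ← pY_sq hrs.1, ← hv]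
        exact mul_div_cancel_right₀ c (pow_ne_zero _ hpy)
    obtain ⟨-, hv⟩ := heval r s hrs hd
    rw [hQ, hRc, xc_some] at hv
    rw [xc_some, Multiset.mem_toFinset, mem_roots hp0]
    simp [IsRoot, hp]
    linear_combination -hv
  let f : {Q : (W⁄K).Point // frobPt W K Q - Q = Rc} → p.roots.toFinset :=
    fun Q => ⟨xc Q.1, (hfib Q.1 Q.2).2⟩
  have hbij : Function.Bijective f := by
    constructor
    · intro Q Q' e
      rcases eq_or_eq_neg_of_xc_eq (hfib Q.1 Q.2).1 (hfib Q'.1 Q'.2).1 (congrArg Subtype.val e)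
        with h' | h'
      · exact Subtype.ext h'
      · exfalso
        have := Q.2
        rw [h', map_neg, ← neg_sub', Q'.2] at this
        exact hRne this
    · rintro ⟨r, hr⟩
      rw [Multiset.mem_toFinset, mem_roots hp0] at hr
      obtain ⟨s, hs⟩ := exists_equation (W⁄K) r
      have hrs : (W⁄K).Nonsingular r s := (equation_iff_nonsingular).mp hs
      obtain ⟨h1, h2⟩ := heval r s hrs (hδr r hr)
      have hx' : xc (frobPt W K (.some r s hrs) - .some r s hrs) = c := by
        simp [IsRoot, hp] at hr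
        apply mul_right_cancel₀ (hBr r (by simp [hp]; linear_combination hr))
        rw [h2]
        linear_combination hr
      rcases eq_or_eq_neg_of_xc_eq h1 (Point.some_ne_zero hy) (by rw [hx', xc_some]) with h' | h'
      · exact ⟨⟨_, h'⟩, Subtype.ext rfl⟩
      · exact ⟨⟨-.some r s hrs, by rw [map_neg, ← neg_sub', h', neg_neg]⟩,
          Subtype.ext (by simp [f])⟩
  have hfibcard : Nat.card {Q : (W⁄K).Point // frobPt W K Q - Q = Rc} = h := by
    rw [Nat.card_congr (Equiv.ofBijective f hbij), Nat.card_eq_fintype_card, Fintype.card_coe,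
      hroots]
  obtain ⟨Q₀, hQ₀⟩ : Nonempty {Q : (W⁄K).Point // frobPt W K Q - Q = Rc} :=
    (Nat.card_pos_iff.mp (hfibcard ▸ (by omega : 0 < h))).1
  rw [← hfibcard, ← card_frobPt_fixed W K]
  exact (Nat.card_congr ((Equiv.addRight Q₀).subtypeEquiv fun Q => by
    simp only [Equiv.coe_addRight, map_add, add_sub_add_comm, hQ₀]
    simp)).symm

end FLTAgent.EllFrob
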