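import Fermat.Agent.EllFrob.Parallelogram
import Fermat.Prelude.Def_FLTPrelim_Modularity
import Mathlib.FieldTheory.Finite.Basic
import Mathlib.FieldTheory.IsAlgClosed.AlgebraicClosure
import Mathlib.Algebra.CharP.Lemmas
import Mathlib.RingTheory.IntegralClosure.IntegrallyClosed

set_option autoImplicit false
set_option linter.unusedSectionVars false

/-!
The generic point of an elliptic curve over a finite field and its Frobenius.
-/

noncomputable section

namespace FLTAgent.EllFrob

open Polynomial WeierstrassCurve WeierstrassCurve.Affine FLTAgent.Torsion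
open scoped WeierstrassCurve.Affine Polynomial.Bivariate

variable {F : Type*} [Field F] (W : WeierstrassCurve F)

/-- `F[t] → F(W)` -/
def iota : F[X] →+* W.toAffine.FunctionField :=
  (algebraMap W.toAffine.CoordinateRing W.toAffine.FunctionField).comp
    (algebraMap F[X] W.toAffine.CoordinateRing)

/-- coordinate functions -/
def tGen : W.toAffine.FunctionField := iota W Polynomial.X

def yGen : W.toAffine.FunctionField :=
  algebraMap W.toAffine.CoordinateRing W.toAffine.FunctionField
    (CoordinateRing.mk W.toAffine Y)

lemma iota_injective : Function.Injective (iota W) :=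
  (IsFractionRing.injective W.toAffine.CoordinateRing W.toAffine.FunctionField).comp
    (FaithfulSMul.algebraMap_injective F[X] W.toAffine.CoordinateRing)

lemma iota_C (c : F) : iota W (Polynomial.C c) = algebraMap F W.toAffine.FunctionField c := rfl

lemma iota_eq_eval (f : F[X]) :
    iota W f = f.eval₂ (algebraMap F W.toAffine.FunctionField) (tGen W) := by
  induction f using Polynomial.induction_on' with
  | add p q hp hq => rw [map_add, eval₂_add, hp, hq]
  | monomial n c =>
    rw [eval₂_monomial, ← C_mul_X_pow_eq_monomial, map_mul, map_pow]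
    rfl

lemma equation_gen : (W⁄W.toAffine.FunctionField).Equation (tGen W) (yGen W) := by
  have h : CoordinateRing.mk W.toAffine W.toAffine.polynomial = 0 := AdjoinRoot.mk_self
  have h' := congrArg (algebraMap W.toAffine.CoordinateRing W.toAffine.FunctionField) h
  have e : ∀ c : F, algebraMap W.toAffine.CoordinateRing W.toAffine.FunctionField
      (CoordinateRing.mk W.toAffine (Polynomial.C (Polynomial.C c)))
        = algebraMap F W.toAffine.FunctionField c := fun c => rfl
  have et : algebraMap W.toAffine.CoordinateRing W.toAffine.FunctionField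
      (CoordinateRing.mk W.toAffine (Polynomial.C Polynomial.X)) = tGen W := rfl
  have ey : algebraMap W.toAffine.CoordinateRing W.toAffine.FunctionField
      (CoordinateRing.mk W.toAffine Y) = yGen W := rfl
  simp only [Affine.polynomial, map_sub, map_add, map_mul, map_pow, map_zero, e, et, ey] at h'
  rw [Affine.equation_iff]
  simp only [WeierstrassCurve.baseChange, WeierstrassCurve.map_a₁, WeierstrassCurve.map_a₂,
    WeierstrassCurve.map_a₃, WeierstrassCurve.map_a₄, WeierstrassCurve.map_a₆]
  linear_combination h'

variable [W.IsElliptic]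

instance isElliptic_genCurve : (W⁄W.toAffine.FunctionField).IsElliptic :=
  inferInstanceAs (W.map (algebraMap F W.toAffine.FunctionField)).IsElliptic

/-- the generic point -/
def gen : (W⁄W.toAffine.FunctionField).Point :=
  .some (tGen W) (yGen W) ((equation_iff_nonsingular).mp (equation_gen W))

lemma hasHt_gen : HasHt (iota W) (gen W) 1 := by
  refine ⟨1, rfl, ![Polynomial.X, 1], Primitive.of_isCoprime isCoprime_one_right, ?_, 1,
    one_ne_zero, ?_⟩
  · refine maxDeg_eq_of (fun i => ?_) ⟨0, by simp⟩
    fin_cases i <;> simp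
  · intro i
    rw [gen, Point.xRep_some]
    fin_cases i <;> simp [tGen]

/-- the hyperelliptic involution of the coordinate ring -/
def conjRing : W.toAffine.CoordinateRing →+* W.toAffine.CoordinateRing :=
  AdjoinRoot.lift (AdjoinRoot.of _) (CoordinateRing.mk W.toAffine W.toAffine.negPolynomial) (by
    have h : (W.toAffine.polynomial).eval₂ Polynomial.C W.toAffine.negPolynomial
        = W.toAffine.polynomial := by
      simp [Affine.polynomial, Affine.negPolynomial, Polynomial.eval₂_pow]
      ring
    have := congrArg (CoordinateRing.mk W.toAffine) h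
    rw [Polynomial.hom_eval₂] at this
    exact this.trans AdjoinRoot.mk_self)

lemma conjRing_of (p : F[X]) : conjRing W (algebraMap F[X] W.toAffine.CoordinateRing p)
    = algebraMap F[X] W.toAffine.CoordinateRing p := AdjoinRoot.lift_of _

lemma conjRing_Y : conjRing W (CoordinateRing.mk W.toAffine Y)
    = - CoordinateRing.mk W.toAffine Y
      - algebraMap F[X] W.toAffine.CoordinateRing
          (Polynomial.C W.a₁ * Polynomial.X + Polynomial.C W.a₃) := by
  refine Eq.trans (AdjoinRoot.lift_root _) ?_
  rw [Affine.negPolynomial, map_sub, map_neg]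
  rfl

lemma mem_range_of_conj {z : W.toAffine.CoordinateRing} (hz : conjRing W z = z) :
    ∃ p : F[X], z = algebraMap F[X] W.toAffine.CoordinateRing p := by
  obtain ⟨p, q, rfl⟩ := CoordinateRing.exists_smul_basis_eq z
  refine ⟨p, ?_⟩
  have key : (q * (Polynomial.C W.a₁ * Polynomial.X + Polynomial.C W.a₃)) •
      (1 : W.toAffine.CoordinateRing) + (2 * q) • CoordinateRing.mk W.toAffine Y = 0 := by
    simp only [Algebra.smul_def, map_add, map_mul, conjRing_Y, map_one, conjRing_of] at hz ⊢
    simp only [map_ofNat] at hz ⊢
    linear_combination -hz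
  obtain ⟨h1, h2⟩ := CoordinateRing.smul_basis_eq_zero key
  suffices hq : q = 0 by simp [hq, Algebra.smul_def]
  by_contra hq
  have h2' : (2 : F[X]) = 0 := (mul_eq_zero.mp h2).resolve_right hq
  have h1' := (mul_eq_zero.mp h1).resolve_left hq
  have ha1 : W.a₁ = 0 := by simpa using congrArg (fun f => Polynomial.coeff f 1) h1'
  have ha3 : W.a₃ = 0 := by simpa using congrArg (fun f => Polynomial.coeff f 0) h1'
  have h2F : (2 : F) = 0 := by simpa using congrArg (Polynomial.eval 0) h2'
  apply W.isUnit_Δ.ne_zero
  simp only [WeierstrassCurve.Δ, b₂, b₄, b₆, b₈, ha1, ha3]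
  linear_combination
    (-8 * W.a₂ ^ 2 * (4 * W.a₂ * W.a₆ - W.a₄ ^ 2) - 32 * W.a₄ ^ 3 - 216 * W.a₆ ^ 2
      + 144 * W.a₂ * W.a₄ * W.a₆) * h2F

variable [Fintype F]

/-- Frobenius on the function field -/
def frobL : W.toAffine.FunctionField →ₐ[F] W.toAffine.FunctionField :=
  FiniteField.frobeniusAlgHom F _

/-- the Frobenius endomorphism at the generic point -/
def frobGen : (W⁄W.toAffine.FunctionField).Point := Point.map (frobL W) (gen W)

lemma hasDeg_expand {v : Fin 2 → W.toAffine.FunctionField} {n : ℕ}
    (h : HasDeg (iota W) v n) :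
    HasDeg (iota W) (fun i => v i ^ Fintype.card F) (n * Fintype.card F) := by
  obtain ⟨s, hp, rfl, c, hc, hv⟩ := h
  refine ⟨fun i => s i ^ Fintype.card F, ?_, ?_, c ^ Fintype.card F, pow_ne_zero _ hc, ?_⟩
  · intro M hM
    obtain ⟨i, hi⟩ := hp M hM
    exact ⟨i, fun h => hi (hM.isPrime.mem_of_pow_mem _ h)⟩
  · refine maxDeg_eq_of (fun i => ?_) ?_
    · rw [natDegree_pow, mul_comm]
      exact Nat.mul_le_mul_right _ (natDegree_le_maxDeg s i)
    · obtain ⟨i, hi⟩ := HasDeg.exists_coeff_ne_zero hp
      refine ⟨i, ?_⟩
      rw [mul_comm, coeff_pow_of_natDegree_le (natDegree_le_maxDeg s i)]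
      exact pow_ne_zero _ hi
  · intro i
    simp [hv, mul_pow]

lemma hasHt_map_frobL {P : (W⁄W.toAffine.FunctionField).Point} {z : ℤ}
    (h : HasHt (iota W) P z) :
    HasHt (iota W) (Point.map (frobL W) P) (z * Fintype.card F) := by
  obtain ⟨n, rfl, hd⟩ := h
  refine ⟨n * Fintype.card F, by push_cast; rfl, ?_⟩
  have h := hasDeg_expand W hd
  convert h using 1
  rcases P with _ | ⟨x, y, hxy⟩
  · funext i
    show (0 : (W⁄W.toAffine.FunctionField).Point).xRep i
      = (0 : (W⁄W.toAffine.FunctionField).Point).xRep i ^ Fintype.card F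
    rw [Point.xRep_zero]
    have := (Fintype.card_pos (α := F)).ne'
    fin_cases i <;> simp [this]
  · funext i
    rw [Point.map_some, Point.xRep_some, Point.xRep_some]
    have := (Fintype.card_pos (α := F)).ne'
    fin_cases i <;> simp [frobL]

lemma hasHt_frobGen : HasHt (iota W) (frobGen W) (Fintype.card F) := by
  simpa [frobGen] using hasHt_map_frobL W (hasHt_gen W)

end FLTAgent.EllFrob
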