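import Fermat.Agent.Torsion.AddSub
import Mathlib.AlgebraicGeometry.EllipticCurve.Affine.AddSubMap
import Mathlib.RingTheory.Polynomial.Basic
import Mathlib.RingTheory.PrincipalIdealDomain

set_option autoImplicit false

/-!
Degrees of projective vectors of rational functions and the parallelogram law for x-coordinates.
-/

noncomputable section

namespace FLTAgent.EllFrob

open Polynomial WeierstrassCurve FLTAgent.Torsion

/-- the explicit addition-and-subtraction map -/
def addSubVec {R : Type*} [CommRing R] (W : WeierstrassCurve R) (v : Fin 3 → R) : Fin 3 → R :=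
  ![v 0 ^ 2 - W.b₄ * v 0 * v 2 - W.b₆ * v 1 * v 2 - W.b₈ * v 2 ^ 2,
    2 * v 1 * v 0 + W.b₂ * v 0 * v 2 + W.b₄ * v 1 * v 2 + W.b₆ * v 2 ^ 2,
    v 1 ^ 2 - 4 * v 0 * v 2]

lemma addSubVec_eq {R : Type*} [CommRing R] (W : WeierstrassCurve R) (v : Fin 3 → R) :
    addSubVec W v = fun i => (W.addSubMap i).eval v := by
  funext i
  fin_cases i <;> simp [addSubVec, WeierstrassCurve.addSubMap]

lemma addSubVec_ne_zero {K : Type*} [Field K] (W : WeierstrassCurve K) [W.IsElliptic]
    {v : Fin 3 → K} (hv : v ≠ 0) : addSubVec W v ≠ 0 := by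
  rw [addSubVec_eq]
  exact W.addSubMap_ne_zero hv

lemma map_addSubVec {R S : Type*} [CommRing R] [CommRing S] (W : WeierstrassCurve R)
    (f : R →+* S) (v : Fin 3 → R) (i : Fin 3) :
    f (addSubVec W v i) = addSubVec (W.map f) (fun j => f (v j)) i := by
  fin_cases i <;> simp [addSubVec, map_ofNat]

variable {k : Type*} [Field k]

/-- no common zero -/
def Primitive {m : ℕ} (s : Fin m → k[X]) : Prop :=
  ∀ M : Ideal k[X], M.IsMaximal → ∃ i, s i ∉ M

/-- maximal degree -/
def maxDeg {m : ℕ} (s : Fin m → k[X]) : ℕ := Finset.univ.sup fun i => (s i).natDegree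

lemma natDegree_le_maxDeg {m : ℕ} (s : Fin m → k[X]) (i : Fin m) :
    (s i).natDegree ≤ maxDeg s := Finset.le_sup (f := fun i => (s i).natDegree) (Finset.mem_univ i)

lemma maxDeg_eq_of {m : ℕ} {s : Fin m → k[X]} {n : ℕ} (hle : ∀ i, (s i).natDegree ≤ n)
    (hne : ∃ i, (s i).coeff n ≠ 0) : maxDeg s = n := by
  refine le_antisymm (Finset.sup_le fun i _ => hle i) ?_
  obtain ⟨i, hi⟩ := hne
  exact (le_natDegree_of_ne_zero hi).trans (natDegree_le_maxDeg s i)

lemma Primitive.exists_comb {m : ℕ} {s : Fin m → k[X]} (h : Primitive s) :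
    ∃ e : Fin m → k[X], ∑ i, e i * s i = 1 := by
  have htop : Ideal.span (Set.range s) = ⊤ := by
    by_contra hne
    obtain ⟨M, hM, hle⟩ := Ideal.exists_le_maximal _ hne
    obtain ⟨i, hi⟩ := h M hM
    exact hi (hle (Ideal.subset_span ⟨i, rfl⟩))
  have h1 : (1 : k[X]) ∈ Ideal.span (Set.range s) := htop ▸ Submodule.mem_top
  exact Submodule.mem_span_range_iff_exists_fun k[X] |>.mp h1

lemma Primitive.of_isCoprime {A B : k[X]} (h : IsCoprime A B) : Primitive ![A, B] := by
  intro M hM
  by_contra hcon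
  push Not at hcon
  obtain ⟨a, b, hab⟩ := h
  refine hM.ne_top ((Ideal.eq_top_iff_one _).mpr ?_)
  rw [← hab]
  exact add_mem (M.mul_mem_left a (hcon 0)) (M.mul_mem_left b (hcon 1))

lemma Primitive.isCoprime {A B : k[X]} (h : Primitive ![A, B]) : IsCoprime A B := by
  obtain ⟨e, he⟩ := h.exists_comb
  exact ⟨e 0, e 1, by simpa [Fin.sum_univ_two] using he⟩

variable {L : Type*} [Field L]

/-- the vector `v` is proportional to a primitive polynomial vector of degree `n` -/
def HasDeg (ι : k[X] →+* L) {m : ℕ} (v : Fin m → L) (n : ℕ) : Prop :=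
  ∃ s : Fin m → k[X], Primitive s ∧ maxDeg s = n ∧ ∃ c : L, c ≠ 0 ∧ ∀ i, v i = c * ι (s i)

variable {ι : k[X] →+* L} {m : ℕ}

lemma HasDeg.of_smul {v w : Fin m → L} {n : ℕ} {d : L} (hd : d ≠ 0) (hw : ∀ i, w i = d * v i)
    (h : HasDeg ι v n) : HasDeg ι w n := by
  obtain ⟨s, hp, hn, c, hc, hv⟩ := h
  exact ⟨s, hp, hn, d * c, mul_ne_zero hd hc, fun i => by rw [hw, hv, mul_assoc]⟩

lemma HasDeg.unique (hι : Function.Injective ι) {v : Fin m → L} {n n' : ℕ} (h : HasDeg ι v n)
    (h' : HasDeg ι v n') : n = n' := by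
  obtain ⟨s, hp, rfl, c, hc, hv⟩ := h
  obtain ⟨s', hp', rfl, c', hc', hv'⟩ := h'
  obtain ⟨e, he⟩ := hp.exists_comb
  obtain ⟨e', he'⟩ := hp'.exists_comb
  have hcross : ∀ i j, s i * s' j = s j * s' i := fun i j => hι (by
    apply mul_left_cancel₀ (mul_ne_zero hc hc')
    rw [map_mul, map_mul]
    have a := congrArg₂ (· * ·) ((hv i).symm.trans (hv' i)) ((hv' j).symm.trans (hv j))
    linear_combination a)
  set w := ∑ i, e i * s' i with hw
  set w' := ∑ i, e' i * s i with hw'
  have h1 : ∀ j, s' j = w * s j := fun j => by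
    rw [hw, Finset.sum_mul]
    calc s' j = (∑ i, e i * s i) * s' j := by rw [he, one_mul]
      _ = _ := by
        rw [Finset.sum_mul]
        exact Finset.sum_congr rfl fun i _ => by rw [mul_assoc, hcross i j]; ring
  have h2 : ∀ j, s j = w' * s' j := fun j => by
    rw [hw', Finset.sum_mul]
    calc s j = (∑ i, e' i * s' i) * s j := by rw [he', one_mul]
      _ = _ := by
        rw [Finset.sum_mul]
        exact Finset.sum_congr rfl fun i _ => by
          rw [mul_assoc, mul_comm (s' i), hcross j i]; ring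
  have hu : IsUnit w := by
    refine IsUnit.of_mul_eq_one w' ?_
    calc w * w' = ∑ i, e i * (w' * s' i) * 1 := by
          rw [hw, Finset.sum_mul]; exact Finset.sum_congr rfl fun i _ => by ring
      _ = 1 := by simp only [← h2, mul_one]; exact he
  have hdeg : ∀ j, (s' j).natDegree = (s j).natDegree := fun j => by
    rw [h1]
    rcases eq_or_ne (s j) 0 with h0 | h0
    · simp [h0]
    · rw [natDegree_mul hu.ne_zero h0, natDegree_eq_zero_of_isUnit hu, zero_add]
  simp only [maxDeg, hdeg]

lemma HasDeg.exists_coeff_ne_zero {s : Fin m → k[X]} (hp : Primitive s) :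
    ∃ i, (s i).coeff (maxDeg s) ≠ 0 := by
  by_contra hcon
  push Not at hcon
  rcases Nat.eq_zero_or_pos (maxDeg s) with h0 | hpos
  · obtain ⟨e, he⟩ := hp.exists_comb
    have hz : ∀ i, s i = 0 := fun i => by
      have hle := natDegree_le_maxDeg s i
      rw [h0] at hle
      rw [eq_C_of_natDegree_le_zero hle, ← h0, hcon i, map_zero]
    simp [hz] at he
  · obtain ⟨i, -, hi⟩ := Finset.exists_mem_eq_sup (Finset.univ : Finset (Fin m))
      (Finset.univ_nonempty_iff.mpr (by
        by_contra hem
        rw [not_nonempty_iff] at hem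
        simp [maxDeg, Finset.univ_eq_empty] at hpos)) (fun i => (s i).natDegree)
    have hdeg : (s i).natDegree = maxDeg s := hi.symm
    have := hcon i
    rw [← hdeg, ← leadingCoeff, leadingCoeff_eq_zero] at this
    rw [this, natDegree_zero] at hdeg
    omega

/-- degree of the symmetric product -/
theorem HasDeg.sym2 {a b a' b' : L} {n n' : ℕ} (h : HasDeg ι ![a, b] n)
    (h' : HasDeg ι ![a', b'] n') :
    HasDeg ι ![a * a', a * b' + b * a', b * b'] (n + n') := by
  obtain ⟨s, hp, rfl, c, hc, hv⟩ := h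
  obtain ⟨s', hp', rfl, c', hc', hv'⟩ := h'
  refine ⟨![s 0 * s' 0, s 0 * s' 1 + s 1 * s' 0, s 1 * s' 1], ?_, ?_, c * c', mul_ne_zero hc hc',
    ?_⟩
  · intro M hM
    by_contra hcon
    push Not at hcon
    have h0 := hcon 0
    have h1 := hcon 1
    have h2 := hcon 2
    simp at h0 h1 h2
    have hMp := hM.isPrime
    obtain ⟨i, hi⟩ := hp M hM
    obtain ⟨j, hj⟩ := hp' M hM
    rcases hMp.mem_or_mem h0 with hA | hA'
    · have hB : s 1 ∉ M := by fin_cases i <;> simp_all
      have hB' : s' 1 ∈ M := (hMp.mem_or_mem h2).resolve_left hB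
      have hA'' : s' 0 ∈ M := (hMp.mem_or_mem ((M.add_mem_iff_right
        (M.mul_mem_right _ hA)).mp h1)).resolve_left hB
      fin_cases j <;> exact hj (by assumption)
    · have hB' : s' 1 ∉ M := by fin_cases j <;> simp_all
      have hB : s 1 ∈ M := (hMp.mem_or_mem h2).resolve_right hB'
      have hA'' : s 0 ∈ M := (hMp.mem_or_mem ((M.add_mem_iff_left
        (M.mul_mem_left _ hA')).mp h1)).resolve_right hB'
      fin_cases i <;> exact hi (by assumption)
  · have d := natDegree_le_maxDeg s
    have d' := natDegree_le_maxDeg s'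
    have hprod : ∀ i j, (s i * s' j).natDegree ≤ maxDeg s + maxDeg s' := fun i j =>
      natDegree_mul_le.trans (Nat.add_le_add (d i) (d' j))
    have hcoef : ∀ i j, (s i * s' j).coeff (maxDeg s + maxDeg s')
        = (s i).coeff (maxDeg s) * (s' j).coeff (maxDeg s') := fun i j =>
      coeff_mul_add_eq_of_natDegree_le (d i) (d' j)
    refine maxDeg_eq_of ?_ ?_
    · intro i
      fin_cases i
      · exact hprod 0 0
      · exact (natDegree_add_le _ _).trans (max_le (hprod 0 1) (hprod 1 0))
      · exact hprod 1 1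
    · obtain ⟨i, hi⟩ := HasDeg.exists_coeff_ne_zero hp
      obtain ⟨j, hj⟩ := HasDeg.exists_coeff_ne_zero hp'
      by_contra hcon
      push Not at hcon
      have h0 := hcon 0
      have h1 := hcon 1
      have h2 := hcon 2
      simp only [Matrix.cons_val_zero, Matrix.cons_val_one, Matrix.cons_val, coeff_add,
        hcoef] at h0 h1 h2
      fin_cases i <;> fin_cases j <;> simp_all
  · intro i
    have e0 := hv 0
    have e1 := hv 1
    have f0 := hv' 0
    have f1 := hv' 1
    simp at e0 e1 f0 f1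
    fin_cases i <;> simp [e0, e1, f0, f1] <;> ring

/-- the addition-and-subtraction map doubles degrees -/
theorem HasDeg.addSub (W : WeierstrassCurve k) [W.IsElliptic] {v : Fin 3 → L} {n : ℕ}
    (h : HasDeg ι v n) :
    HasDeg ι (addSubVec (W.map (ι.comp Polynomial.C)) v) (2 * n) := by
  obtain ⟨s, hp, rfl, c, hc, hv⟩ := h
  refine ⟨addSubVec (W.map Polynomial.C) s, ?_, ?_, c ^ 2, pow_ne_zero _ hc, ?_⟩
  · intro M hM
    let _ := Ideal.Quotient.field M
    obtain ⟨i, hi⟩ := hp M hM
    by_contra hcon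
    push Not at hcon
    have hne : (fun j => Ideal.Quotient.mk M (s j)) ≠ 0 := fun e =>
      hi (Ideal.Quotient.eq_zero_iff_mem.mp (congrFun e i))
    have : (W.map ((Ideal.Quotient.mk M).comp Polynomial.C)).IsElliptic := inferInstance
    refine addSubVec_ne_zero (W.map ((Ideal.Quotient.mk M).comp Polynomial.C)) hne ?_
    funext j
    rw [← WeierstrassCurve.map_map, ← map_addSubVec]
    exact Ideal.Quotient.eq_zero_iff_mem.mpr (hcon j)
  · set N := maxDeg s with hN
    have d := natDegree_le_maxDeg s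
    have d2 : ∀ i j, (s i * s j).natDegree ≤ 2 * N := fun i j =>
      natDegree_mul_le.trans (by have := d i; have := d j; omega)
    have dC : ∀ (a : k) (i j : Fin 3), (Polynomial.C a * s i * s j).natDegree ≤ 2 * N :=
      fun a i j => by rw [mul_assoc]; exact (natDegree_C_mul_le _ _).trans (d2 i j)
    have c2 : ∀ i j, (s i * s j).coeff (2 * N) = (s i).coeff N * (s j).coeff N := fun i j => by
      rw [two_mul]; exact coeff_mul_add_eq_of_natDegree_le (d i) (d j)
    have cC : ∀ (a : k) (i j : Fin 3), (Polynomial.C a * s i * s j).coeff (2 * N)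
        = a * ((s i).coeff N * (s j).coeff N) := fun a i j => by rw [mul_assoc, coeff_C_mul, c2]
    have e0 : addSubVec (W.map Polynomial.C) s 0 = s 0 * s 0 - Polynomial.C W.b₄ * s 0 * s 2
        - Polynomial.C W.b₆ * s 1 * s 2 - Polynomial.C W.b₈ * s 2 * s 2 := by
      simp [addSubVec]; ring
    have e1 : addSubVec (W.map Polynomial.C) s 1 = Polynomial.C 2 * s 1 * s 0
        + Polynomial.C W.b₂ * s 0 * s 2 + Polynomial.C W.b₄ * s 1 * s 2
        + Polynomial.C W.b₆ * s 2 * s 2 := by
      simp [addSubVec, map_ofNat]; ring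
    have e2 : addSubVec (W.map Polynomial.C) s 2 = s 1 * s 1 - Polynomial.C 4 * s 0 * s 2 := by
      simp [addSubVec, map_ofNat]; ring
    refine maxDeg_eq_of ?_ ?_
    · intro i
      fin_cases i
      · show (addSubVec (W.map Polynomial.C) s 0).natDegree ≤ _
        rw [e0]
        exact (natDegree_sub_le _ _).trans (max_le ((natDegree_sub_le _ _).trans (max_le
          ((natDegree_sub_le _ _).trans (max_le (d2 _ _) (dC _ _ _))) (dC _ _ _))) (dC _ _ _))
      · show (addSubVec (W.map Polynomial.C) s 1).natDegree ≤ _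
        rw [e1]
        exact (natDegree_add_le _ _).trans (max_le ((natDegree_add_le _ _).trans (max_le
          ((natDegree_add_le _ _).trans (max_le (dC _ _ _) (dC _ _ _))) (dC _ _ _))) (dC _ _ _))
      · show (addSubVec (W.map Polynomial.C) s 2).natDegree ≤ _
        rw [e2]
        exact (natDegree_sub_le _ _).trans (max_le (d2 _ _) (dC _ _ _))
    · obtain ⟨i, hi⟩ := HasDeg.exists_coeff_ne_zero hp
      have hne : (fun j => (s j).coeff N) ≠ 0 := fun e => hi (congrFun e i)
      by_contra hcon
      push Not at hcon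
      refine addSubVec_ne_zero W hne ?_
      funext j
      have := hcon j
      fin_cases j
      · simp only [Fin.zero_eta, Fin.isValue] at this ⊢
        rw [e0, coeff_sub, coeff_sub, coeff_sub, c2, cC, cC, cC] at this
        simp [addSubVec]; linear_combination this
      · simp only [Fin.mk_one, Fin.isValue] at this ⊢
        rw [e1, coeff_add, coeff_add, coeff_add, cC, cC, cC, cC] at this
        simp [addSubVec]; linear_combination this
      · simp only [Fin.reduceFinMk, Fin.isValue] at this ⊢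
        rw [e2, coeff_sub, c2, cC] at this
        simp [addSubVec]; linear_combination this
  · intro i
    have hv' : v = fun j => c * ι (s j) := funext hv
    rw [map_addSubVec, WeierstrassCurve.map_map, hv']
    fin_cases i <;> simp [addSubVec] <;> ring

/-- substitution of a vector of degree `d` into one of degree `n` -/
def substVec (s : Fin 2 → k[X]) (n : ℕ) (A B : k[X]) : Fin 2 → k[X] :=
  fun i => ∑ j ∈ Finset.range (n + 1), Polynomial.C ((s i).coeff j) * A ^ j * B ^ (n - j)

lemma homog_ne_zero {K : Type*} [Field K] {s : Fin 2 → k[X]} (hp : Primitive s) (f : k →+* K)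
    {a b : K} (hab : a ≠ 0 ∨ b ≠ 0) :
    ∃ i, ∑ j ∈ Finset.range (maxDeg s + 1),
      f ((s i).coeff j) * a ^ j * b ^ (maxDeg s - j) ≠ 0 := by
  rcases eq_or_ne b 0 with rfl | hb
  · obtain ⟨i, hi⟩ := HasDeg.exists_coeff_ne_zero hp
    refine ⟨i, ?_⟩
    rw [Finset.sum_eq_single (maxDeg s)]
    · have ha : a ≠ 0 := hab.resolve_right (fun h => h rfl)
      simp [ha, hi]
    · intro j hj hne
      rw [Finset.mem_range] at hj
      rw [zero_pow (by omega), mul_zero]
    · simp
  · by_contra hcon
    push Not at hcon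
    have hz : ∀ i, (s i).eval₂ f (a / b) = 0 := fun i => by
      rw [eval₂_eq_sum_range' f (Nat.lt_succ_of_le (natDegree_le_maxDeg s i))]
      apply mul_right_cancel₀ (pow_ne_zero (maxDeg s) hb)
      rw [zero_mul, Finset.sum_mul, ← hcon i]
      refine Finset.sum_congr rfl fun j hj => ?_
      rw [Finset.mem_range] at hj
      rw [div_pow, ← Nat.sub_add_cancel (Nat.lt_succ_iff.mp hj), pow_add, Nat.add_sub_cancel]
      field_simp
    obtain ⟨e, he⟩ := hp.exists_comb
    have h1 := congrArg (Polynomial.eval₂RingHom f (a / b)) he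
    simp [hz] at h1

/-- composition multiplies degrees -/
theorem primitive_substVec {s : Fin 2 → k[X]} (hp : Primitive s) {t : Fin 2 → k[X]}
    (ht : Primitive t) :
    Primitive (substVec s (maxDeg s) (t 0) (t 1)) ∧
      maxDeg (substVec s (maxDeg s) (t 0) (t 1)) = maxDeg s * maxDeg t := by
  set n := maxDeg s
  set d := maxDeg t
  constructor
  · intro M hM
    let _ := Ideal.Quotient.field M
    obtain ⟨i, hi⟩ := ht M hM
    have hab : Ideal.Quotient.mk M (t 0) ≠ 0 ∨ Ideal.Quotient.mk M (t 1) ≠ 0 := by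
      fin_cases i
      · exact Or.inl fun e => hi (Ideal.Quotient.eq_zero_iff_mem.mp e)
      · exact Or.inr fun e => hi (Ideal.Quotient.eq_zero_iff_mem.mp e)
    obtain ⟨j, hj⟩ := homog_ne_zero hp ((Ideal.Quotient.mk M).comp Polynomial.C) hab
    refine ⟨j, fun hmem => hj ?_⟩
    have := Ideal.Quotient.eq_zero_iff_mem.mpr hmem
    rw [← this]
    simp [substVec, n, map_sum, map_mul, map_pow]
  · have dd := natDegree_le_maxDeg t
    have hterm : ∀ (c : k) (j : ℕ), j ≤ n →
        (Polynomial.C c * t 0 ^ j * t 1 ^ (n - j)).natDegree ≤ n * d ∧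
        (Polynomial.C c * t 0 ^ j * t 1 ^ (n - j)).coeff (n * d)
          = c * (t 0).coeff d ^ j * (t 1).coeff d ^ (n - j) := by
      intro c j hj
      have p0 : (t 0 ^ j).natDegree ≤ j * d := natDegree_pow_le_of_le j (dd 0)
      have p1 : (t 1 ^ (n - j)).natDegree ≤ (n - j) * d := natDegree_pow_le_of_le (n - j) (dd 1)
      have hnd : n * d = j * d + (n - j) * d := by rw [← add_mul, Nat.add_sub_cancel' hj]
      refine ⟨?_, ?_⟩
      · rw [hnd, mul_assoc]
        exact (natDegree_C_mul_le _ _).trans (natDegree_mul_le.trans (Nat.add_le_add p0 p1))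
      · rw [hnd, mul_assoc, coeff_C_mul, coeff_mul_add_eq_of_natDegree_le p0 p1,
          coeff_pow_of_natDegree_le (dd 0), coeff_pow_of_natDegree_le (dd 1), mul_assoc]
    refine maxDeg_eq_of (fun i => ?_) ?_
    · refine natDegree_sum_le_of_forall_le _ _ fun j hj => ?_
      rw [Finset.mem_range] at hj
      exact (hterm _ j (by omega)).1
    · obtain ⟨i, hi⟩ := HasDeg.exists_coeff_ne_zero ht
      have hab : (t 0).coeff d ≠ 0 ∨ (t 1).coeff d ≠ 0 := by
        fin_cases i
        · exact Or.inl hi
        · exact Or.inr hi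
      obtain ⟨j, hj⟩ := homog_ne_zero hp (RingHom.id k) hab
      refine ⟨j, ?_⟩
      rw [substVec, finsetSum_coeff]
      convert hj using 1
      refine Finset.sum_congr rfl fun l hl => ?_
      rw [Finset.mem_range] at hl
      exact (hterm _ l (by omega)).2

end FLTAgent.EllFrob
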