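import Fermat.Agent.EllFrob.Height

set_option autoImplicit false
set_option linter.unusedSectionVars false

/-!
The parallelogram law for the degree of x-coordinates.
-/

noncomputable section

namespace FLTAgent.EllFrob

open Polynomial WeierstrassCurve WeierstrassCurve.Affine FLTAgent.Torsion

section Field

variable {F : Type*} [Field F] [DecidableEq F] {W : WeierstrassCurve F}

lemma sym2x_eq (P Q : W.toAffine.Point) :
    Point.sym2x P Q = ![P.xRep 0 * Q.xRep 0, P.xRep 0 * Q.xRep 1 + P.xRep 1 * Q.xRep 0,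
      P.xRep 1 * Q.xRep 1] := rfl

theorem sym2x_add_sub (P Q : W.toAffine.Point) :
    ∃ c : F, c ≠ 0 ∧ ∀ i, Point.sym2x (P + Q) (P - Q) i
      = c * addSubVec W (Point.sym2x P Q) i := by
  rcases eq_or_ne P 0 with rfl | hP
  · refine ⟨1, one_ne_zero, fun i => ?_⟩
    rw [zero_add, zero_sub, Point.sym2x_neg_right, one_mul]
    rcases Q with _ | ⟨x, y, h⟩
    · rw [← Point.zero_def, Point.sym2x_zero_zero]
      fin_cases i <;> simp [addSubVec]
    · rw [Point.sym2x_zero_some, Point.sym2x_some_some]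
      fin_cases i <;> simp [addSubVec] <;> ring
  rcases eq_or_ne Q 0 with rfl | hQ
  · refine ⟨1, one_ne_zero, fun i => ?_⟩
    rw [add_zero, sub_zero, one_mul]
    obtain ⟨x, y, h, rfl, -⟩ := exists_some_of_ne_zero hP
    rw [Point.sym2x_some_zero, Point.sym2x_some_some]
    fin_cases i <;> simp [addSubVec] <;> ring
  by_cases hx : xc P = xc Q
  · have key : ∀ (x y : F) (h : W.toAffine.Nonsingular x y), ∃ c : F, c ≠ 0 ∧
        ∀ i, Point.sym2x (Point.some x y h + Point.some x y h) 0 i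
          = c * addSubVec W (Point.sym2x (Point.some x y h) (Point.some x y h)) i := by
      intro x y h
      rw [Point.sym2x_some_some]
      have hB := pY_sq h.1
      have e0 : addSubVec W ![x * x, x + x, 1] 0 = (W.Φ 2).eval x := by
        simp [addSubVec]; ring
      have e1 : addSubVec W ![x * x, x + x, 1] 1 = W.Ψ₂Sq.eval x := by
        simp [addSubVec, WeierstrassCurve.Ψ₂Sq]; ring
      have e2 : addSubVec W ![x * x, x + x, 1] 2 = 0 := by
        simp [addSubVec]; ring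
      by_cases hy : pY W x y = 0
      · rw [Point.add_self_of_Y_eq (eq_negY_iff_pY.mpr hy), Point.sym2x_zero_zero]
        rw [hy] at hB
        have hX : pX W x y ≠ 0 := by
          rcases h.2 with h' | h'
          · intro e
            apply h'
            rw [evalEval_polynomialX]
            simpa [pX] using e
          · exact absurd (by rw [evalEval_polynomialY]; simpa [pY] using hy) h'
        have hΦ : (W.Φ 2).eval x ≠ 0 := by
          rw [doubling_num h.1, hy]; simpa using hX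
        refine ⟨((W.Φ 2).eval x)⁻¹, inv_ne_zero hΦ, fun i => ?_⟩
        fin_cases i
        · simp only [Fin.zero_eta, Fin.isValue]; rw [e0, inv_mul_cancel₀ hΦ]; simp
        · simp only [Fin.mk_one, Fin.isValue]; rw [e1, ← hB]; simp
        · simp only [Fin.reduceFinMk, Fin.isValue]; rw [e2]; simp
      · obtain ⟨hne, hval⟩ := xc_two (h := h) hy
        obtain ⟨a, b, hab, heq, hxc⟩ := exists_some_of_ne_zero hne
        rw [hxc] at hval
        rw [heq, Point.sym2x_some_zero]
        refine ⟨(pY W x y ^ 2)⁻¹, inv_ne_zero (pow_ne_zero _ hy), fun i => ?_⟩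
        fin_cases i
        · simp only [Fin.zero_eta, Fin.isValue]; rw [e0, ← hval]; field_simp; simp
        · simp only [Fin.mk_one, Fin.isValue]; rw [e1, ← hB, inv_mul_cancel₀ (pow_ne_zero _ hy)]
          simp
        · simp only [Fin.reduceFinMk, Fin.isValue]; rw [e2]; simp
    obtain ⟨x, y, h, hPe, -⟩ := exists_some_of_ne_zero hP
    obtain ⟨c, hc, hk⟩ := key x y h
    rw [← hPe] at hk
    rcases eq_or_eq_neg_of_xc_eq hP hQ hx with hPQ | hPQ
    · refine ⟨c, hc, fun i => ?_⟩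
      rw [← hPQ, sub_self]
      exact hk i
    · refine ⟨c, hc, fun i => ?_⟩
      have hQ' : Q = -P := by rw [hPQ, neg_neg]
      rw [hQ', add_neg_cancel, sub_neg_eq_add, Point.sym2x_comm, Point.sym2x_neg_right]
      exact hk i
  · obtain ⟨h1, h2, hs, hp⟩ := xc_add_sub hP hQ hx
    obtain ⟨a, b, hab, e1, f1⟩ := exists_some_of_ne_zero h1
    obtain ⟨a', b', hab', e2, f2⟩ := exists_some_of_ne_zero h2
    obtain ⟨u, s, hu, eP, fP⟩ := exists_some_of_ne_zero hP
    obtain ⟨v, t, hv, eQ, fQ⟩ := exists_some_of_ne_zero hQ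
    rw [f1, f2, fP, fQ] at hs hp
    rw [fP, fQ] at hx
    rw [e1, e2, eP, eQ, Point.sym2x_some_some, Point.sym2x_some_some]
    have hd : (u - v) ^ 2 ≠ 0 := pow_ne_zero _ (sub_ne_zero.mpr hx)
    refine ⟨((u - v) ^ 2)⁻¹, inv_ne_zero hd, fun i => ?_⟩
    fin_cases i <;> simp [addSubVec] <;> field_simp
    · rw [prodNum] at hp; linear_combination hp
    · rw [sumNum] at hs; linear_combination hs
    · ring

end Field

variable {k : Type*} [Field k] {L : Type*} [Field L] [DecidableEq L]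
  {ι : k[X] →+* L} {W : WeierstrassCurve k} [W.IsElliptic]

/-- the point has x-coordinate of degree `z` -/
def HasHt (ι : k[X] →+* L) {E : WeierstrassCurve L} (P : E.toAffine.Point) (z : ℤ) : Prop :=
  ∃ n : ℕ, (n : ℤ) = z ∧ HasDeg ι P.xRep n

local notation "E" => WeierstrassCurve.map W (RingHom.comp ι Polynomial.C)

lemma HasHt.zero : HasHt ι (0 : (E).toAffine.Point) 0 := by
  refine ⟨0, rfl, ![1, 0], Primitive.of_isCoprime isCoprime_one_left, ?_, 1, one_ne_zero, ?_⟩
  · exact maxDeg_eq_of (fun i => by fin_cases i <;> simp) ⟨0, by simp⟩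
  · intro i
    rw [Point.xRep_zero]
    fin_cases i <;> simp

lemma HasHt.neg {P : (E).toAffine.Point} {z : ℤ} (h : HasHt ι P z) : HasHt ι (-P) z := by
  obtain ⟨n, hn, hd⟩ := h
  exact ⟨n, hn, by rwa [Point.xRep_neg]⟩

lemma HasHt.unique (hι : Function.Injective ι) {P : (E).toAffine.Point} {a b : ℤ}
    (h : HasHt ι P a) (h' : HasHt ι P b) : a = b := by
  obtain ⟨n, rfl, hd⟩ := h
  obtain ⟨m, rfl, hd'⟩ := h'
  rw [hd.unique hι hd']

lemma HasHt.nonneg {P : (E).toAffine.Point} {a : ℤ} (h : HasHt ι P a) : 0 ≤ a := by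
  obtain ⟨n, rfl, -⟩ := h; exact Int.natCast_nonneg n

lemma xRep_eta (P : (E).toAffine.Point) : P.xRep = ![P.xRep 0, P.xRep 1] := by
  ext i; fin_cases i <;> rfl

lemma hasDeg_sym2x {P Q : (E).toAffine.Point} {a b : ℤ} (hP : HasHt ι P a)
    (hQ : HasHt ι Q b) :
    ∃ n : ℕ, (n : ℤ) = a + b ∧ HasDeg ι (Point.sym2x P Q) n := by
  obtain ⟨n, rfl, hd⟩ := hP
  obtain ⟨m, rfl, hd'⟩ := hQ
  refine ⟨n + m, by push_cast; rfl, ?_⟩
  rw [sym2x_eq]
  rw [xRep_eta] at hd hd'
  exact hd.sym2 hd'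

lemma hasDeg_of_fraction (hι : Function.Injective ι) {x : L} {A B : k[X]} (hB : B ≠ 0)
    (hx : x * ι B = ι A) : ∃ m, HasDeg ι ![x, 1] m := by
  classical
  obtain ⟨A', hA'⟩ := GCDMonoid.gcd_dvd_left A B
  obtain ⟨B', hB'⟩ := GCDMonoid.gcd_dvd_right A B
  have hg : gcd A B ≠ 0 := fun e => hB (by rw [hB', e, zero_mul])
  have hB'0 : B' ≠ 0 := fun e => hB (by rw [hB', e, mul_zero])
  have hcop : IsCoprime A' B' := by
    obtain ⟨a, b, hab⟩ := exists_gcd_eq_mul_add_mul A B
    refine ⟨a, b, ?_⟩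
    apply mul_left_cancel₀ hg
    linear_combination (-a) * hA' - b * hB' - hab
  have hιB : ι B' ≠ 0 := (map_ne_zero_iff ι hι).mpr hB'0
  refine ⟨maxDeg ![A', B'], ![A', B'], Primitive.of_isCoprime hcop, rfl, (ι B')⁻¹,
    inv_ne_zero hιB, ?_⟩
  intro i
  have hx' : x * ι B' = ι A' := by
    apply mul_left_cancel₀ ((map_ne_zero_iff ι hι).mpr hg)
    have eA := congrArg ι hA'
    have eB := congrArg ι hB'
    rw [map_mul] at eA eB
    linear_combination hx + eA - x * eB
  fin_cases i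
  · simp [← hx']; field_simp
  · simp [hιB]

/-- if two points and their difference have rational x-coordinates, so has the sum -/
lemma exists_hasHt_add (hι : Function.Injective ι) {P Q : (E).toAffine.Point} {a b c : ℤ}
    (hP : HasHt ι P a) (hQ : HasHt ι Q b) (hd : HasHt ι (P - Q) c) :
    HasHt ι (P + Q) (2 * a + 2 * b - c) := by
  obtain ⟨n, hn, hsym⟩ := hasDeg_sym2x hP hQ
  obtain ⟨e, he, hprop⟩ := sym2x_add_sub P Q
  have h2 : HasDeg ι (Point.sym2x (P + Q) (P - Q)) (2 * n) :=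
    (hsym.addSub W).of_smul he hprop
  suffices hex : ∃ m, HasDeg ι (P + Q).xRep m by
    obtain ⟨m, hm⟩ := hex
    obtain ⟨m', hm', hs⟩ := hasDeg_sym2x (a := (m : ℤ)) ⟨m, rfl, hm⟩ hd
    have := h2.unique hι hs
    exact ⟨m, by omega, hm⟩
  obtain ⟨l, -, hd'⟩ := hd
  generalize P + Q = S at h2
  generalize P - Q = T at h2 hd'
  rcases S with _ | ⟨x, y, h⟩
  · obtain ⟨m, -, hm⟩ := HasHt.zero (ι := ι) (W := W)
    exact ⟨m, hm⟩
  rw [Point.xRep_some]
  obtain ⟨s, -, -, d, hd0, hsv⟩ := h2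
  rcases T with _ | ⟨x', y', h'⟩
  · have e0 := hsv 0
    have e1 := hsv 1
    rw [← Point.zero_def, Point.sym2x_some_zero] at e0 e1
    simp at e0 e1
    have hs1 : ι (s 1) ≠ 0 := fun e' => by rw [e', mul_zero] at e1; exact one_ne_zero e1
    refine hasDeg_of_fraction hι (A := s 0) (B := s 1) ((map_ne_zero_iff ι hι).mp hs1) ?_
    linear_combination ι (s 1) * e0 - ι (s 0) * e1
  · obtain ⟨t, -, -, d', hd'0, htv⟩ := hd'
    have f0 := htv 0
    have f1 := htv 1
    rw [Point.xRep_some] at f0 f1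
    have e1 := hsv 1
    have e2 := hsv 2
    rw [Point.sym2x_some_some] at e1 e2
    simp at e1 e2 f0 f1
    have hs2 : ι (s 2) ≠ 0 := fun e' => by rw [e', mul_zero] at e2; exact one_ne_zero e2
    have ht1 : ι (t 1) ≠ 0 := fun e' => by rw [e', mul_zero] at f1; exact one_ne_zero f1
    refine hasDeg_of_fraction hι (A := s 1 * t 1 - t 0 * s 2) (B := s 2 * t 1)
      (mul_ne_zero ((map_ne_zero_iff ι hι).mp hs2) ((map_ne_zero_iff ι hι).mp ht1)) ?_
    simp only [map_mul, map_sub]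
    linear_combination (ι (s 2) * ι (t 1)) * e1 - ι (s 1) * ι (t 1) * e2
      - ι (s 2) * ι (t 1) * f0 + ι (s 2) * ι (t 0) * f1

/-- the height is a quadratic form on the lattice spanned by two points -/
theorem hasHt_lattice (hι : Function.Injective ι) {P Q : (E).toAffine.Point} {a c s : ℤ}
    (hP : HasHt ι P a) (hQ : HasHt ι Q c) (hsum : HasHt ι (P + Q) s) :
    ∀ m n : ℤ, HasHt ι (m • P + n • Q) (m ^ 2 * a + n ^ 2 * c + m * n * (s - a - c)) := by
  set b := s - a - c with hb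
  have hdiff : HasHt ι (P - Q) (a + c - b) := by
    have h' := exists_hasHt_add hι hP hQ.neg (c := s) (by rw [sub_neg_eq_add]; exact hsum)
    rw [← sub_eq_add_neg] at h'
    rw [show a + c - b = 2 * a + 2 * c - s by omega]
    exact h'
  have row : ∀ e : ℤ, (e = 0 ∨ e = 1) → ∀ m : ℤ,
      HasHt ι (m • P + e • Q) (m ^ 2 * a + e ^ 2 * c + m * e * b) := by
    intro e he
    have base0 : HasHt ι ((0 : ℤ) • P + e • Q) (0 ^ 2 * a + e ^ 2 * c + 0 * e * b) := by
      rcases he with rfl | rfl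
      · simpa using HasHt.zero (W := W) (ι := ι)
      · simpa using hQ
    have base1 : HasHt ι ((1 : ℤ) • P + e • Q) (1 ^ 2 * a + e ^ 2 * c + 1 * e * b) := by
      rcases he with rfl | rfl
      · simpa using hP
      · rw [show (1 : ℤ) ^ 2 * a + 1 ^ 2 * c + 1 * 1 * b = s by rw [hb]; ring]
        simpa using hsum
    have base' : HasHt ι ((-1 : ℤ) • P + e • Q) ((-1) ^ 2 * a + e ^ 2 * c + (-1) * e * b) := by
      rcases he with rfl | rfl
      · simpa using hP.neg
      · rw [show (-1 : ℤ) ^ 2 * a + 1 ^ 2 * c + (-1) * 1 * b = a + c - b by ring]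
        simpa [neg_sub, sub_eq_add_neg, add_comm] using hdiff.neg
    intro m
    suffices h : ∀ k : ℕ,
        (HasHt ι ((k : ℤ) • P + e • Q) ((k : ℤ) ^ 2 * a + e ^ 2 * c + (k : ℤ) * e * b) ∧
        HasHt ι (((k : ℤ) + 1) • P + e • Q)
          (((k : ℤ) + 1) ^ 2 * a + e ^ 2 * c + ((k : ℤ) + 1) * e * b)) ∧
        (HasHt ι ((-(k : ℤ)) • P + e • Q) ((-(k : ℤ)) ^ 2 * a + e ^ 2 * c + (-(k : ℤ)) * e * b) ∧
        HasHt ι ((-(k : ℤ) - 1) • P + e • Q)
          ((-(k : ℤ) - 1) ^ 2 * a + e ^ 2 * c + (-(k : ℤ) - 1) * e * b)) by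
      obtain ⟨k, rfl | rfl⟩ := Int.eq_nat_or_neg m
      · exact (h k).1.1
      · exact (h k).2.1
    intro k
    induction k with
    | zero => exact ⟨⟨by simpa using base0, by simpa using base1⟩,
        ⟨by simpa using base0, by simpa using base'⟩⟩
    | succ k IH =>
      obtain ⟨⟨u0, u1⟩, ⟨d0, d1⟩⟩ := IH
      refine ⟨⟨by push_cast; exact u1, ?_⟩, ⟨by push_cast; rw [neg_add, ← sub_eq_add_neg]; exact d1, ?_⟩⟩
      · have h := exists_hasHt_add hι u1 hP
          (c := (k : ℤ) ^ 2 * a + e ^ 2 * c + (k : ℤ) * e * b) (by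
          rwa [show ((k : ℤ) + 1) • P + e • Q - P = (k : ℤ) • P + e • Q by module])
        rw [show ((k : ℤ) + 1) • P + e • Q + P = (((k + 1 : ℕ) : ℤ) + 1) • P + e • Q by
          push_cast; module] at h
        refine Eq.mp (congrArg _ ?_) h
        push_cast; ring
      · have h := exists_hasHt_add hι d1 hP.neg
          (c := (-(k : ℤ)) ^ 2 * a + e ^ 2 * c + (-(k : ℤ)) * e * b) (by
          rwa [show (-(k : ℤ) - 1) • P + e • Q - -P = (-(k : ℤ)) • P + e • Q by module])
        rw [show (-(k : ℤ) - 1) • P + e • Q + -P = (-((k + 1 : ℕ) : ℤ) - 1) • P + e • Q by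
          push_cast; module] at h
        refine Eq.mp (congrArg _ ?_) h
        push_cast; ring
  have row' : ∀ m : ℤ, HasHt ι (m • P + (-1 : ℤ) • Q) (m ^ 2 * a + c - m * b) := by
    intro m
    have h := (row 1 (Or.inr rfl) (-m)).neg
    rw [show -((-m) • P + (1 : ℤ) • Q) = m • P + (-1 : ℤ) • Q by module] at h
    refine Eq.mp (congrArg _ ?_) h
    ring
  intro m n
  suffices h : ∀ k : ℕ, ∀ m : ℤ,
      (HasHt ι (m • P + (k : ℤ) • Q) (m ^ 2 * a + (k : ℤ) ^ 2 * c + m * k * b) ∧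
      HasHt ι (m • P + ((k : ℤ) + 1) • Q)
        (m ^ 2 * a + ((k : ℤ) + 1) ^ 2 * c + m * ((k : ℤ) + 1) * b)) by
    obtain ⟨k, rfl | rfl⟩ := Int.eq_nat_or_neg n
    · exact (h k m).1
    · have h' := (h k (-m)).1.neg
      rw [show -((-m) • P + (k : ℤ) • Q) = m • P + (-(k : ℤ)) • Q by module] at h'
      refine Eq.mp (congrArg _ ?_) h'
      ring
  intro k
  induction k with
  | zero => exact fun m => ⟨by simpa using row 0 (Or.inl rfl) m, by simpa using row 1 (Or.inr rfl) m⟩
  | succ k IH =>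
    intro m
    refine ⟨by push_cast; exact (IH m).2, ?_⟩
    have h := exists_hasHt_add hι (IH m).2 hQ
      (c := m ^ 2 * a + (k : ℤ) ^ 2 * c + m * k * b) (by
      rw [show m • P + ((k : ℤ) + 1) • Q - Q = m • P + (k : ℤ) • Q by module]; exact (IH m).1)
    rw [show m • P + ((k : ℤ) + 1) • Q + Q = m • P + (((k + 1 : ℕ) : ℤ) + 1) • Q by
      push_cast; module] at h
    refine Eq.mp (congrArg _ ?_) h
    push_cast; ring

end FLTAgent.EllFrob
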