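import Fermat.Agent.EllFrob.Conj
import Mathlib.RingTheory.Algebraic.Basic

set_option autoImplicit false
set_option linter.unusedSectionVars false

/-!
Substituting a point with transcendental x-coordinate into the function field.
-/

noncomputable section

namespace FLTAgent.EllFrob

open Polynomial WeierstrassCurve WeierstrassCurve.Affine FLTAgent.Torsion
open scoped WeierstrassCurve.Affine Polynomial.Bivariate

variable {F : Type*} [Field F] (W : WeierstrassCurve F) [W.IsElliptic]

theorem exists_algHom_of_transcendental {E : Type*} [Field E] [Algebra F E] {x y : E}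
    (h : (W⁄E).toAffine.Equation x y) (htr : Transcendental F x) :
    ∃ ε : W.toAffine.FunctionField →ₐ[F] E, ε (tGen W) = x ∧ ε (yGen W) = y := by
  let ev : W.toAffine.CoordinateRing →+* E :=
    AdjoinRoot.lift (Polynomial.eval₂RingHom (algebraMap F E) x) y (by
      rw [Affine.equation_iff'] at h
      simp only [WeierstrassCurve.baseChange, WeierstrassCurve.map_a₁, WeierstrassCurve.map_a₂,
        WeierstrassCurve.map_a₃, WeierstrassCurve.map_a₄, WeierstrassCurve.map_a₆] at h
      simp [Affine.polynomial, Polynomial.eval₂_pow]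
      linear_combination h)
  have h1 : ∀ f : F[X], ev (algebraMap F[X] W.toAffine.CoordinateRing f) = aeval x f :=
    fun f => AdjoinRoot.lift_of _
  have hinj : Function.Injective ev := by
    rw [injective_iff_map_eq_zero]
    intro z hz
    by_contra hz0
    have hc := (map_ne_zero_iff _ (conjRing_injective W)).mpr hz0
    obtain ⟨f, hf⟩ := mem_range_of_conj W (z := z * conjRing W z) (by
      rw [map_mul, conjRing_conjRing, mul_comm])
    have hf0 : f ≠ 0 := fun e => mul_ne_zero hz0 hc (by rw [hf, e, map_zero])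
    exact htr ⟨f, hf0, by rw [← h1, ← hf, map_mul, hz, zero_mul]⟩
  have key : ∀ z, (IsFractionRing.lift (K := W.toAffine.FunctionField) hinj)
      (algebraMap W.toAffine.CoordinateRing W.toAffine.FunctionField z) = ev z :=
    fun z => IsFractionRing.lift_algebraMap hinj z
  refine ⟨{ IsFractionRing.lift (K := W.toAffine.FunctionField) hinj with
    commutes' := fun c => ?_ }, ?_, ?_⟩
  · refine (key (algebraMap F[X] W.toAffine.CoordinateRing (Polynomial.C c))).trans ?_
    rw [h1, aeval_C]
  · refine (key (algebraMap F[X] W.toAffine.CoordinateRing Polynomial.X)).trans ?_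
    rw [h1, aeval_X]
  · refine (key (CoordinateRing.mk W.toAffine Y)).trans ?_
    exact AdjoinRoot.lift_root _

lemma algHom_iota {E : Type*} [Field E] [Algebra F E]
    (ε : W.toAffine.FunctionField →ₐ[F] E) (f : F[X]) : ε (iota W f) = aeval (ε (tGen W)) f := by
  rw [iota_eq_eval, Polynomial.aeval_def, ← AlgHom.coe_toRingHom, Polynomial.hom_eval₂,
    AlgHom.comp_algebraMap]

lemma transcendental_of_hasDeg {x : W.toAffine.FunctionField} {d : ℕ}
    (hd : HasDeg (iota W) ![x, 1] d) (hd0 : 1 ≤ d) : Transcendental F x := by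
  rintro ⟨f, hf0, hfx⟩
  obtain ⟨s, hs, rfl, c, hc, hv⟩ := hd
  set n := f.natDegree with hn
  have hpr : Primitive ![f, 1] := Primitive.of_isCoprime isCoprime_one_right
  have hmd : maxDeg ![f, 1] = n := by
    refine maxDeg_eq_of (fun i => ?_) ⟨0, ?_⟩
    · fin_cases i <;> simp [hn]
    · simpa [hn] using leadingCoeff_ne_zero.mpr hf0
  obtain ⟨hp', hmd'⟩ := primitive_substVec hpr hs
  rw [hmd] at hp' hmd'
  rcases Nat.eq_zero_or_pos n with h0 | hpos
  · rw [hn] at h0
    rw [eq_C_of_natDegree_eq_zero h0] at hfx hf0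
    simp only [aeval_C, map_eq_zero] at hfx
    exact hf0 (by rw [hfx, map_zero])
  have e0 := hv 0
  have e1 := hv 1
  simp at e0 e1
  have hB : iota W (s 1) ≠ 0 := fun e => by rw [e, mul_zero] at e1; exact one_ne_zero e1
  have z0 : substVec ![f, 1] n (s 0) (s 1) 0 = 0 := by
    apply iota_injective W
    rw [map_zero]
    have : (aeval x f : W.toAffine.FunctionField) * iota W (s 1) ^ n
        = iota W (substVec ![f, 1] n (s 0) (s 1) 0) := by
      rw [substVec, map_sum, aeval_eq_sum_range' (n := n + 1) (Nat.lt_succ_self _), Finset.sum_mul]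
      refine Finset.sum_congr rfl fun j hj => ?_
      rw [Finset.mem_range] at hj
      rw [map_mul, map_mul, map_pow, map_pow, iota_C, Algebra.smul_def,
        ← Nat.sub_add_cancel (Nat.lt_succ_iff.mp hj), pow_add, Nat.add_sub_cancel]
      have hx : x * iota W (s 1) = iota W (s 0) := by
        linear_combination (iota W (s 1)) * e0 - iota W (s 0) * e1
      rw [← hx, mul_pow]
      simp only [Matrix.cons_val_zero]
      ring
    rw [← this, hfx, zero_mul]
  obtain ⟨i, hi⟩ := HasDeg.exists_coeff_ne_zero hp'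
  rw [hmd'] at hi
  fin_cases i
  · exact hi (by show (substVec ![f, 1] n (s 0) (s 1) 0).coeff _ = 0; rw [z0, coeff_zero])
  · obtain ⟨e, he⟩ := hp'.exists_comb
    rw [Fin.sum_univ_two, z0, mul_zero, zero_add] at he
    have hu : IsUnit (substVec ![f, 1] n (s 0) (s 1) 1) := IsUnit.of_mul_eq_one_right _ he
    exact hi (coeff_eq_zero_of_natDegree_lt (by
      show (substVec ![f, 1] n (s 0) (s 1) 1).natDegree < _
      rw [natDegree_eq_zero_of_isUnit hu]
      exact Nat.mul_pos hpos hd0))

/-- substitution multiplies heights -/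
theorem hasHt_map_subst {x y : W.toAffine.FunctionField}
    {hxy : (W⁄W.toAffine.FunctionField).Nonsingular x y} {d : ℤ}
    (hR : HasHt (iota W) (Point.some x y hxy) d)
    (ε : W.toAffine.FunctionField →ₐ[F] W.toAffine.FunctionField) (hεt : ε (tGen W) = x)
    {P : (W⁄W.toAffine.FunctionField).Point} {z : ℤ} (hP : HasHt (iota W) P z) :
    HasHt (iota W) (Point.map ε P) (z * d) := by
  obtain ⟨l, rfl, hR⟩ := hR
  obtain ⟨n, rfl, hP⟩ := hP
  refine ⟨n * l, by push_cast; rfl, ?_⟩
  rw [Point.xRep_some] at hR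
  obtain ⟨t, ht, rfl, c', hc', hv'⟩ := hR
  obtain ⟨s, hs, rfl, c, hc, hv⟩ := hP
  obtain ⟨hp, hd⟩ := primitive_substVec hs ht
  have e0 := hv' 0
  have e1 := hv' 1
  simp at e0 e1
  have hB : iota W (t 1) ≠ 0 := fun e => by rw [e, mul_zero] at e1; exact one_ne_zero e1
  have hx : x * iota W (t 1) = iota W (t 0) := by
    linear_combination (iota W (t 1)) * e0 - iota W (t 0) * e1
  refine ⟨_, hp, hd, ε c * ((iota W (t 1)) ^ maxDeg s)⁻¹, mul_ne_zero
    ((map_ne_zero_iff _ ε.injective).mpr hc) (inv_ne_zero (pow_ne_zero _ hB)), fun i => ?_⟩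
  have hmap : (Point.map ε P).xRep i = ε (P.xRep i) := by
    rcases P with _ | ⟨a, b, h⟩
    · rw [← Point.zero_def, map_zero, Point.xRep_zero]
      fin_cases i <;> simp
    · rw [Point.map_some, Point.xRep_some, Point.xRep_some]
      fin_cases i <;> simp
  rw [hmap, hv i, map_mul, algHom_iota, hεt, mul_assoc]
  congr 1
  rw [eq_inv_mul_iff_mul_eq₀ (pow_ne_zero _ hB), substVec, map_sum,
    aeval_eq_sum_range' (n := maxDeg s + 1) (Nat.lt_succ_of_le (natDegree_le_maxDeg s i)),
    Finset.mul_sum]
  refine Finset.sum_congr rfl fun j hj => ?_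
  rw [Finset.mem_range] at hj
  rw [map_mul, map_mul, map_pow, map_pow, iota_C, Algebra.smul_def, ← hx, mul_pow,
    ← Nat.sub_add_cancel (Nat.lt_succ_iff.mp hj), pow_add, Nat.add_sub_cancel]
  ring

end FLTAgent.EllFrob
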