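import Fermat.Agent.EllFrob.Reduction
import Fermat.Agent.Torsion.StableLine
import Mathlib.LinearAlgebra.Matrix.ToLin
import Mathlib.LinearAlgebra.Trace
import Mathlib.LinearAlgebra.Determinant
import Mathlib.FieldTheory.Finiteness

set_option autoImplicit false
set_option linter.all false

/-!
Trace and determinant of Frobenius on the `p`-torsion of an elliptic curve.
-/

noncomputable section

namespace FLTAgent.EllFrob

open WeierstrassCurve IsLocalRing FLTAgent.Local FLTAgent.Torsion Polynomial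
open scoped WeierstrassCurve.Affine
open WeierstrassCurve.Affine.Point (galoisTrace galoisTrace_def galoisRepModuleEnd
  galoisRepModuleEnd_apply algEquiv_smul_zsmul)
open WeierstrassCurve.Affine (Point)

local notation "Ω" => AlgebraicClosure ℚ

lemma exists_hensel {p : ℕ} (hp : p.Prime) (a l m : ℤ) (h1 : (p : ℤ) ∣ m ^ 2 - a * m + l)
    (h2 : ¬ (p : ℤ) ∣ 2 * m - a) (N : ℕ) :
    ∃ r : ℤ, (p : ℤ) ∣ r - m ∧ (p : ℤ) ^ N ∣ r ^ 2 - a * r + l := by
  induction N with
  | zero => exact ⟨m, by simp, by simp⟩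
  | succ N ih =>
    rcases Nat.eq_zero_or_pos N with rfl | hN
    · exact ⟨m, by simp, by simpa using h1⟩
    obtain ⟨r, hr, hf⟩ := ih
    have hd : ¬ (p : ℤ) ∣ 2 * r - a := fun h => h2 (by
      have := h.sub (hr.mul_left 2); rwa [show 2 * r - a - 2 * (r - m) = 2 * m - a by ring] at this)
    have hcop : IsCoprime (p : ℤ) (2 * r - a) :=
      ((Nat.prime_iff_prime_int.mp hp).coprime_iff_not_dvd).mpr hd
    obtain ⟨x, u, hu⟩ := hcop
    set f := r ^ 2 - a * r + l with hfdef
    obtain ⟨c, hc⟩ := hf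
    refine ⟨r - u * f, ?_, ?_⟩
    · rw [show r - u * f - m = (r - m) - u * f by ring, hc]
      exact dvd_sub hr (((dvd_pow_self _ (by omega)).mul_right c).mul_left u)
    · refine ⟨c * x + u ^ 2 * c ^ 2 * (p : ℤ) ^ (N - 1), ?_⟩
      have hpow : (p : ℤ) ^ N = (p : ℤ) * (p : ℤ) ^ (N - 1) := by
        rw [← pow_succ']; congr 1; omega
      have e : (r - u * f) ^ 2 - a * (r - u * f) + l
          = f * (1 - u * (2 * r - a)) + u ^ 2 * f ^ 2 := by rw [hfdef]; ring
      rw [e, show 1 - u * (2 * r - a) = x * p by linear_combination -hu, hc, pow_succ]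
      linear_combination (u ^ 2 * c ^ 2 * (p : ℤ) ^ N) * hpow

variable {W : WeierstrassCurve ℤ} {A : ValuationSubring (AlgebraicClosure ℚ)} {ℓ p : ℕ}
  {σ : AlgebraicClosure ℚ ≃ₐ[ℚ] AlgebraicClosure ℚ}

lemma galois_zsmul (c : ℤ) (P : QPoint W) : σ • (c • P) = c • (σ • P) :=
  algEquiv_smul_zsmul σ c P

/-- if Frobenius is the scalar `m` on `p`-torsion with `m` a simple root, it is scalar on all
`p`-power torsion -/
lemma scalar_pow (hℓ : ℓ.Prime) (hgood : ¬ (ℓ : ℤ) ∣ W.Δ) (hA : A.LiesOverPrime ℓ)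
    (hσ : A.IsFrobeniusAt σ ℓ) (hp : p.Prime) (hpℓ : p ≠ ℓ) {m : ℤ}
    (hscal : ∀ P : QPoint W, p • P = 0 → σ • P = m • P)
    (hroot : (p : ℤ) ∣ m ^ 2 - W.apOfModel ℓ * m + ℓ)
    (hsimple : ¬ (p : ℤ) ∣ 2 * m - W.apOfModel ℓ) (N : ℕ) :
    ∃ r : ℤ, ∀ P : QPoint W, p ^ N • P = 0 → σ • P = r • P := by
  set a := W.apOfModel ℓ with ha
  obtain ⟨r, hrm, hr⟩ := exists_hensel hp a ℓ m hroot hsimple N
  refine ⟨r, fun P hP => ?_⟩
  have hn : ¬ ℓ ∣ p ^ N := fun h =>
    hpℓ ((Nat.prime_dvd_prime_iff_eq hℓ hp).mp (hℓ.dvd_of_dvd_pow h)).symm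
  have hrel := torsion_relation hℓ hgood hA hσ hn P hP
  have hz : ∀ {c : ℤ}, (p : ℤ) ^ N ∣ c → ∀ Q : QPoint W, p ^ N • Q = 0 → c • Q = 0 := by
    rintro c ⟨d, rfl⟩ Q hQ
    rw [mul_comm, mul_zsmul, ← Nat.cast_pow, natCast_zsmul, hQ, zsmul_zero]
  set Q := σ • P - r • P with hQ
  have hQN : p ^ N • Q = 0 := by
    rw [hQ, nsmul_sub, smul_torsion hP, ← natCast_zsmul, ← mul_zsmul, mul_comm, mul_zsmul,
      natCast_zsmul, hP, zsmul_zero, sub_zero]
  have hQ' : σ • Q - (a - r) • Q = 0 := by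
    have := hz hr P hP
    rw [add_zsmul, sub_zsmul, sq, mul_zsmul, mul_zsmul] at this
    rw [hQ, smul_sub, galois_zsmul, sub_zsmul, zsmul_sub, zsmul_sub]
    linear_combination (norm := abel) hrel - this
  by_contra hne
  have hQ0 : Q ≠ 0 := fun e => hne (sub_eq_zero.mp e)
  have key : ∀ k, k ≤ N → p ^ (N - k) • Q = 0 := by
    intro k hk
    induction k with
    | zero => simpa using hQN
    | succ k ih =>
      have h0 := ih (by omega)
      set R := p ^ (N - (k + 1)) • Q with hR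
      have hpR : p • R = 0 := by
        rw [hR, ← mul_nsmul, ← pow_succ, show N - (k + 1) + 1 = N - k by omega]
        exact h0
      have h1 : σ • R - (a - r) • R = 0 := by
        have e1 : σ • R = p ^ (N - (k + 1)) • (σ • Q) := by
          rw [hR, ← natCast_zsmul, galois_zsmul, natCast_zsmul]
        rw [e1, sub_eq_zero.mp hQ', hR, ← natCast_zsmul, ← natCast_zsmul, ← mul_zsmul, ← mul_zsmul,
          mul_comm, sub_self]
      rw [hscal R hpR] at h1
      replace h1 : (m - (a - r)) • R = 0 := by rw [sub_zsmul, ← sub_eq_add_neg]; exact h1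
      have hcop : IsCoprime (p : ℤ) (m - (a - r)) :=
        ((Nat.prime_iff_prime_int.mp hp).coprime_iff_not_dvd).mpr fun h => hsimple (by
          have := h.sub hrm
          rwa [show m - (a - r) - (r - m) = 2 * m - a by ring] at this)
      obtain ⟨x, y, hxy⟩ := hcop
      calc R = (x * p + y * (m - (a - r))) • R := by rw [hxy, one_zsmul]
        _ = 0 := by rw [add_zsmul, mul_zsmul, mul_zsmul, natCast_zsmul, hpR, h1, zsmul_zero,
              zsmul_zero, add_zero]
  have := key N le_rfl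
  rw [Nat.sub_self, pow_zero, one_nsmul] at this
  exact hQ0 this

lemma natCard_torsion (hΔ : W.Δ ≠ 0) (n : ℕ) (hn : n ≠ 0) :
    Nat.card {P : QPoint W // n • P = 0} = n ^ 2 := by
  haveI := isElliptic_curveBar hΔ
  exact card_nsmul_kernel (curveBar W) n hn

/-- Frobenius is not scalar on all `p`-power torsion -/
lemma not_scalar_pow (hℓ : ℓ.Prime) (hgood : ¬ (ℓ : ℤ) ∣ W.Δ) (hA : A.LiesOverPrime ℓ)
    (hσ : A.IsFrobeniusAt σ ℓ) (hp : p.Prime) (hpℓ : p ≠ ℓ) :
    ¬ ∀ N : ℕ, ∃ r : ℤ, ∀ P : QPoint W, p ^ N • P = 0 → σ • P = r • P := by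
  classical
  intro hall
  have hΔ : W.Δ ≠ 0 := fun e => hgood (by simp [e])
  obtain ⟨N, hN⟩ : ∃ N, 4 * ℓ + 4 ≤ p ^ N := ⟨4 * ℓ + 4, (Nat.lt_pow_self hp.one_lt).le⟩
  obtain ⟨r₀, hr₀⟩ := hall N
  set M := p ^ N with hM
  have hMpos : 0 < M := by omega
  -- balanced representative
  obtain ⟨r, hr, hrsize⟩ : ∃ r : ℤ, (∀ P : QPoint W, M • P = 0 → σ • P = r • P) ∧
      2 * r.natAbs ≤ M := by
    refine ⟨r₀.bmod M, fun P hP => ?_, ?_⟩
    · rw [hr₀ P hP]
      obtain ⟨c, hc⟩ : (M : ℤ) ∣ r₀ - r₀.bmod M :=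
        Int.dvd_self_sub_bmod
      rw [show r₀ = r₀.bmod M + c * M by linear_combination hc, add_zsmul, mul_zsmul, natCast_zsmul,
        hP, zsmul_zero, add_zero, ← show r₀ = r₀.bmod M + c * M by linear_combination hc]
    · have h1 := Int.le_bmod (x := r₀) hMpos
      have h2 := Int.bmod_lt (x := r₀) hMpos
      omega
  haveI : Fact ℓ.Prime := ⟨hℓ⟩
  haveI := charP_residue A hA hℓ
  letI : Algebra (ZMod ℓ) (ResidueField A) := ZMod.algebra _ ℓ
  have hn : ¬ ℓ ∣ M := fun h =>
    hpℓ ((Nat.prime_dvd_prime_iff_eq hℓ hp).mp (hℓ.dvd_of_dvd_pow h)).symm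
  set k := ResidueField A
  set V : WeierstrassCurve k := specFib (locModel A W) with hV
  haveI : V.IsElliptic := by
    constructor
    rw [isUnit_iff_ne_zero, hV, specFib, map_Δ, res_ne_zero, val_locModel_Δ]
    exact val_int_eq_one hA hℓ hgood
  have hE0 : ∀ Q : QPoint W, InE0 (toLoc A W Q) := fun Q =>
    (inE0_toLoc A W).2 (mem_zeroComp_of_good hA hℓ hgood Q)
  let ρ : QPoint W →+ V.toAffine.Point :=
    (redHom (locModel A W)).comp ((toLoc A W).codRestrict (compZero (locModel A W)) hE0)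
  have hker : ∀ Q, ρ Q = 0 → M • Q = 0 → Q = 0 := fun Q h hQ =>
    redKernel_torsion_eq_zero hA hℓ hn
      ((inE1_toLoc W A).1 (inE1_of_red_eq_zero (hE0 Q) h)) hQ
  -- the Frobenius of the special fibre
  have hd := hσ.mem_decompositionSubgroup
  let frx : k → k := fun z => z ^ ℓ
  have hfrob : ∀ Q : QPoint W, M • Q = 0 → Q ≠ 0 →
      ρ Q ≠ 0 ∧ ρ (σ • Q) ≠ 0 ∧ xc (ρ (σ • Q)) = xc (ρ Q) ^ ℓ := by
    intro Q hQ hQ0
    have n1 : ρ Q ≠ 0 := fun e => hQ0 (hker Q e hQ)
    have hσQ : σ • Q ≠ 0 := fun e => hQ0 (by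
      rw [← inv_smul_smul σ Q, e, Affine.Point.algEquiv_smul_def, map_zero])
    have n2 : ρ (σ • Q) ≠ 0 := fun e => hσQ (hker _ e (smul_torsion hQ))
    refine ⟨n1, n2, ?_⟩
    rcases Q with _ | ⟨x, y, h⟩
    · exact absurd rfl hQ0
    have hns : ((W.map (Int.castRingHom ℚ))⁄Ω).toAffine.Nonsingular (σ x) (σ y) :=
      ((W.map (Int.castRingHom ℚ)).toAffine.baseChange_nonsingular σ.toAlgHom.injective x y).2 h
    obtain ⟨h1, e1⟩ := toLoc_some A W h
    obtain ⟨h2, e2⟩ := toLoc_some A W hns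
    have hx : x ∈ A := by
      by_contra hx
      exact n1 (show red (toLoc A W (.some x y h)) = 0 by rw [e1]; exact InE1.red_eq (show InE1 (Point.some _ _ h1) from hx))
    have hσx : σ x ∈ A := by rw [← A.valuation_le_one_iff, val_aut hd]; exact val_le_one hx
    obtain ⟨_, hy, hn1⟩ := (hE0 (.some x y h) |> fun h0 => by
      rw [e1] at h0; exact (h0 : x ∉ A ∨ _).resolve_left (not_not.2 hx))
    obtain ⟨_, hσy, hn2⟩ := (hE0 (.some (σ x) (σ y) hns) |> fun h0 => by
      rw [e2] at h0; exact (h0 : σ x ∉ A ∨ _).resolve_left (not_not.2 hσx))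
    show xc (red (toLoc A W (.some (σ x) (σ y) hns))) = xc (red (toLoc A W (.some x y h))) ^ ℓ
    rw [e1, e2, red_some hx hy hn1, red_some hσx hσy hn2, xc_some, xc_some,
      ← hσ.smul_residue_eq (residue A ⟨x, hx⟩), ← IsLocalRing.ResidueField.residue_smul]
    rfl
  set s := r.natAbs with hs
  rcases Nat.eq_zero_or_pos s with hs0 | hspos
  · have hr0 : r = 0 := by omega
    have hcard := natCard_torsion hΔ M (by omega)
    obtain ⟨⟨Q, hQ⟩, hQ0⟩ : ∃ Q : {P : QPoint W // M • P = 0}, Q.1 ≠ 0 := by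
      by_contra hc
      push Not at hc
      haveI : Subsingleton {P : QPoint W // M • P = 0} :=
        ⟨fun a b => Subtype.ext ((hc a).trans (hc b).symm)⟩
      rw [Nat.card_of_subsingleton (⟨0, nsmul_zero _⟩ : {P : QPoint W // M • P = 0})] at hcard
      nlinarith
    obtain ⟨-, n2, -⟩ := hfrob Q hQ hQ0
    rw [hr Q hQ, hr0, zero_zsmul, map_zero] at n2
    exact n2 rfl
  set f : k[X] := V.Φ s - X ^ ℓ * V.ΨSq s with hf
  have hf0 : f ≠ 0 := by
    intro e
    let K := AlgebraicClosure k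
    let φ := algebraMap k K
    haveI : (V.map φ).IsElliptic := inferInstance
    have e' : (V.map φ).Φ s = X ^ ℓ * (V.map φ).ΨSq s := by
      rw [WeierstrassCurve.map_Φ, WeierstrassCurve.map_ΨSq]
      have := congrArg (Polynomial.map φ) (sub_eq_zero.mp (hf ▸ e))
      rw [Polynomial.map_mul, Polynomial.map_pow, Polynomial.map_X] at this
      exact this
    by_cases hroot : ∃ x, ((V.map φ).ΨSq s).IsRoot x
    · obtain ⟨x, hx⟩ := hroot
      obtain ⟨y, hy⟩ := exists_equation (V.map φ) x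
      refine Φ_ne_zero_of_ΨSq_eq_zero ((Affine.equation_iff_nonsingular).mp hy) (n := s) (by omega)
        hx ?_
      rw [e', eval_mul, show ((V.map φ).ΨSq s).eval x = 0 from hx, mul_zero]
    · have hdeg : ((V.map φ).ΨSq s).natDegree = 0 := by
        by_contra hne
        exact hroot (IsAlgClosed.exists_root _ (fun h => hne (natDegree_eq_of_degree_eq_some h)))
      have hC := eq_C_of_natDegree_eq_zero hdeg
      have hΦ : ((V.map φ).Φ s).natDegree = s ^ 2 := by simp [WeierstrassCurve.natDegree_Φ]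
      rcases eq_or_ne (((V.map φ).ΨSq s).coeff 0) 0 with hc | hc
      · rw [e', hC, hc, map_zero, mul_zero, natDegree_zero] at hΦ
        have : 0 < s ^ 2 := pow_pos hspos 2
        omega
      · rw [e', hC, natDegree_mul_C hc, natDegree_X_pow] at hΦ
        exact Nat.Prime.not_prime_pow le_rfl (hΦ ▸ hℓ)
  have hfdeg : f.natDegree ≤ s ^ 2 + ℓ := by
    rw [hf]
    refine (natDegree_sub_le _ _).trans (max_le ?_ (natDegree_mul_le.trans ?_))
    · have := V.natDegree_Φ_le (s : ℤ); rw [Int.natAbs_natCast] at this; omega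
    · have := V.natDegree_ΨSq_le (s : ℤ); rw [Int.natAbs_natCast] at this
      rw [natDegree_X_pow]; omega
  -- roots
  have hroot : ∀ Q : QPoint W, M • Q = 0 → Q ≠ 0 → f.IsRoot (xc (ρ Q)) := by
    intro Q hQ hQ0
    obtain ⟨n1, n2, hx⟩ := hfrob Q hQ hQ0
    rw [hr Q hQ, map_zsmul] at n2 hx
    obtain ⟨a, b, hab, he, hax⟩ := exists_some_of_ne_zero n1
    have hsr : r • ρ Q = s • ρ Q ∨ r • ρ Q = -(s • ρ Q) := by
      rcases Int.natAbs_eq r with h | h
      · left; rw [h, natCast_zsmul]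
      · right; rw [h, neg_zsmul, natCast_zsmul]
    have n2' : s • ρ Q ≠ 0 := fun e => n2 (by rcases hsr with h | h <;> simp [h, e])
    have hx' : xc (s • ρ Q) = xc (ρ Q) ^ ℓ := by
      rcases hsr with h | h
      · rwa [h] at hx
      · rwa [h, xc_neg] at hx
    rw [he] at n2' hx' ⊢
    rw [xc_some] at hx' ⊢
    have hne : (V.ΨSq s).eval a ≠ 0 := fun e => n2' ((nsmul_eq_zero_iff hab s).mpr e)
    have h3 := xc_nsmul hab s hne
    rw [hx'] at h3
    rw [IsRoot, hf, eval_sub, eval_mul, eval_pow, eval_X]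
    linear_combination -h3
  -- counting
  let F : {P : QPoint W // M • P = 0} → V.toAffine.Point := fun Q => ρ Q.1
  have hFinj : Function.Injective F := fun Q Q' e => Subtype.ext (sub_eq_zero.mp
    (hker _ (by rw [map_sub, sub_eq_zero]; exact e) (by rw [nsmul_sub, Q.2, Q'.2, sub_zero])))
  let S : Set V.toAffine.Point := {R | R = 0 ∨ xc R ∈ f.roots.toFinset}
  let g : {P : QPoint W // M • P = 0} → S := fun Q => ⟨F Q, by
    by_cases h : Q.1 = 0
    · left; show ρ Q.1 = 0; rw [h, map_zero]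
    · right; rw [Multiset.mem_toFinset, mem_roots hf0]; exact hroot Q.1 Q.2 h⟩
  have hginj : Function.Injective g := fun Q Q' e => hFinj (congrArg Subtype.val e)
  have hS : Finite S ∧ Nat.card S ≤ 2 * f.roots.toFinset.card + 1 := by
    let h' : S → Option (f.roots.toFinset × Bool) := fun R =>
      if h : R.1 = 0 then none else
        some (⟨xc R.1, R.2.resolve_left h⟩, decide (R.1 = Classical.epsilon fun P : V.toAffine.Point =>
          P ≠ 0 ∧ xc P = xc R.1))
    have hinj : Function.Injective h' := by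
      intro R R' e
      simp only [h'] at e
      by_cases h1 : R.1 = 0 <;> by_cases h2 : R'.1 = 0 <;>
        simp only [h1, h2, dif_pos, dif_neg, not_false_iff, reduceCtorEq] at e
      · exact Subtype.ext (h1.trans h2.symm)
      · simp only [Option.some.injEq, Prod.mk.injEq, Subtype.mk.injEq, decide_eq_decide] at e
        obtain ⟨ex, ed⟩ := e
        rw [← ex] at ed
        obtain ⟨e0, ee⟩ := Classical.epsilon_spec
          (p := fun P : V.toAffine.Point => P ≠ 0 ∧ xc P = xc R.1) ⟨R.1, h1, rfl⟩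
        set c := Classical.epsilon fun P : V.toAffine.Point => P ≠ 0 ∧ xc P = xc R.1
        rcases eq_or_eq_neg_of_xc_eq h1 e0 ee.symm with u | u
        · exact Subtype.ext (u.trans (ed.mp u).symm)
        · rcases eq_or_eq_neg_of_xc_eq h2 e0 (ex ▸ ee.symm) with w | w
          · exact Subtype.ext ((ed.mpr w).trans w.symm)
          · exact Subtype.ext (u.trans w.symm)
    refine ⟨Finite.of_injective h' hinj, (Nat.card_le_card_of_injective h' hinj).trans ?_⟩
    rw [Nat.card_eq_fintype_card, Fintype.card_option, Fintype.card_prod, Fintype.card_bool,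
      Fintype.card_coe]
    omega
  have := hS.1
  have hc := (Nat.card_le_card_of_injective g hginj).trans hS.2
  rw [natCard_torsion hΔ M (by omega)] at hc
  have h1 : f.roots.toFinset.card ≤ s ^ 2 + ℓ :=
    (Multiset.toFinset_card_le _).trans ((card_roots' f).trans hfdeg)
  have h2 : 4 * s ^ 2 ≤ M ^ 2 := by nlinarith
  nlinarith

theorem galois_charpoly (hℓ : ℓ.Prime) (hgood : ¬ (ℓ : ℤ) ∣ W.Δ) (hA : A.LiesOverPrime ℓ)
    (hσ : A.IsFrobeniusAt σ ℓ) (hp : p.Prime) (hpℓ : p ≠ ℓ) :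
    galoisTrace ℚ (K := Ω) (W.map (Int.castRingHom ℚ)) p σ = (W.apOfModel ℓ : ZMod p) ∧
      LinearMap.det (galoisRepModuleEnd ℚ (K := Ω) (W.map (Int.castRingHom ℚ)) p σ)
        = (ℓ : ZMod p) := by
  classical
  haveI : Fact p.Prime := ⟨hp⟩
  have hΔ : W.Δ ≠ 0 := fun e => hgood (by simp [e])
  haveI := isElliptic_curveBar hΔ
  set T := Submodule.torsionBy ℤ (QPoint W) (p : ℤ)
  have hcard : Nat.card T = p ^ 2 := natCard_torsionBy (curveBar W) p hp.ne_zero
  haveI : Finite T := Nat.finite_of_card_ne_zero (by rw [hcard]; exact pow_ne_zero _ hp.ne_zero)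
  haveI : Module.Finite (ZMod p) T := Module.Finite.of_finite
  have hrank : Module.finrank (ZMod p) T = 2 := by
    have h := Module.natCard_eq_pow_finrank (K := ZMod p) (V := T)
    rw [hcard, Nat.card_zmod] at h
    exact Nat.pow_right_injective hp.two_le h.symm
  let b : Module.Basis (Fin 2) (ZMod p) T := Module.finBasisOfFinrankEq _ _ hrank
  set g := galoisRepModuleEnd ℚ (K := Ω) (W.map (Int.castRingHom ℚ)) p σ with hg
  set a := W.apOfModel ℓ
  set M := LinearMap.toMatrix b b g with hM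
  have htors : ∀ x : T, p • (x : QPoint W) = 0 := fun x => by
    rw [← natCast_zsmul]; exact x.2
  have hgg : g * g - (a : ZMod p) • g + (ℓ : ZMod p) • 1 = 0 := by
    refine LinearMap.ext fun x => Subtype.ext ?_
    have h := torsion_relation hℓ hgood hA hσ (n := p)
      (fun h => hpℓ ((Nat.prime_dvd_prime_iff_eq hℓ hp).mp h).symm) (x : QPoint W) (htors x)
    simp only [LinearMap.add_apply, LinearMap.sub_apply, LinearMap.smul_apply,
      Module.End.mul_apply, Module.End.one_apply, LinearMap.zero_apply, hg,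
      galoisRepModuleEnd_apply, Submodule.coe_add, AddSubgroupClass.coe_sub,
      Int.cast_smul_eq_zsmul, Nat.cast_smul_eq_nsmul]
    rw [natCast_zsmul] at h
    exact h
  have hMM : M * M - (a : ZMod p) • M + (ℓ : ZMod p) • 1 = 0 := by
    have := congrArg (LinearMap.toMatrix b b) hgg
    simpa [LinearMap.toMatrix_mul, LinearMap.toMatrix_one, hM] using this
  rw [galoisTrace_def, LinearMap.trace_eq_matrix_trace _ b, ← LinearMap.det_toMatrix b, ← hg, ← hM,
    Matrix.trace_fin_two, Matrix.det_fin_two]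
  have e00 := congrFun (congrFun hMM 0) 0
  have e01 := congrFun (congrFun hMM 0) 1
  have e10 := congrFun (congrFun hMM 1) 0
  have e11 := congrFun (congrFun hMM 1) 1
  simp [Matrix.mul_apply, Fin.sum_univ_two] at e00 e01 e10 e11
  have key : M 0 0 + M 1 1 = (a : ZMod p) := by
    by_contra hne
    have h01 : M 0 1 = 0 := by
      have : M 0 1 * (M 0 0 + M 1 1 - a) = 0 := by linear_combination e01
      exact (mul_eq_zero.mp this).resolve_right (sub_ne_zero.mpr hne)
    have h10 : M 1 0 = 0 := by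
      have : M 1 0 * (M 0 0 + M 1 1 - a) = 0 := by linear_combination e10
      exact (mul_eq_zero.mp this).resolve_right (sub_ne_zero.mpr hne)
    have hdiag : M 0 0 = M 1 1 := by
      have : (M 0 0 - M 1 1) * (M 0 0 + M 1 1 - a) = 0 := by linear_combination e00 - e11
      exact sub_eq_zero.mp ((mul_eq_zero.mp this).resolve_right (sub_ne_zero.mpr hne))
    obtain ⟨m, hm⟩ := ZMod.intCast_surjective (M 0 0)
    have hMs : g = (m : ZMod p) • 1 := by
      apply (LinearMap.toMatrix b b).injective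
      rw [← hM, map_smul, LinearMap.toMatrix_one]
      ext i j
      fin_cases i <;> fin_cases j <;> simp [h01, h10, hm, hdiag]
    refine not_scalar_pow hℓ hgood hA hσ hp hpℓ (scalar_pow hℓ hgood hA hσ hp hpℓ (m := m)
      (fun P hP => ?_) ?_ ?_)
    · have h := congrArg (fun f => ((f ⟨P, by
        show (p : ℤ) • P = 0; rw [natCast_zsmul]; exact hP⟩ : T) : QPoint W)) hMs
      simp [hg, Int.cast_smul_eq_zsmul] at h
      exact h
    · rw [← ZMod.intCast_zmod_eq_zero_iff_dvd]
      push_cast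
      rw [hm]
      linear_combination e00 - M 1 0 * h01
    · rw [← ZMod.intCast_zmod_eq_zero_iff_dvd]
      push_cast
      rw [hm]
      intro h
      exact hne (by linear_combination h + hdiag.symm)
  exact ⟨key, by linear_combination (-1 : ZMod p) * e00 + M 0 0 * key⟩

end FLTAgent.EllFrob
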